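import Mathlib

/-!
Primitives on the upper half-plane, normalised at `i∞` along vertical lines, of `g(w) w ^ j` for
`g` holomorphic and exponentially decaying at `i∞`.
-/

set_option autoImplicit false

namespace FermatAgent.Periods

open Complex Filter Topology MeasureTheory Set

/-- The upper half-plane as a subset of `ℂ`. -/
def upperSet : Set ℂ := {z | 0 < z.im}

theorem isOpen_upperSet : IsOpen upperSet := isOpen_lt continuous_const Complex.continuous_im

theorem convex_upperSet : Convex ℝ upperSet := convex_halfSpace_im_gt 0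

theorem upperSet_add_mul_I {z : ℂ} (hz : z ∈ upperSet) {t : ℝ} (ht : 0 ≤ t) :
    z + t * I ∈ upperSet := by
  simp only [upperSet, mem_ofPred_eq] at hz ⊢
  simp
  linarith

/-- Holomorphic on the upper half-plane and exponentially decaying at `i∞`. -/
structure VDecay (g : ℂ → ℂ) : Prop where
  diff : DifferentiableOn ℂ g upperSet
  decay : ∃ c > 0, ∃ C A : ℝ, ∀ z : ℂ, A ≤ z.im → ‖g z‖ ≤ C * Real.exp (-c * z.im)

/-- `-i ∫₀^∞ g(z + it) (z + it) ^ j dt`, the integral of `g(w) w ^ j` from `i∞` to `z`. -/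
noncomputable def momInt (g : ℂ → ℂ) (j : ℕ) (z : ℂ) : ℂ :=
  -I * ∫ t in Ioi (0 : ℝ), g (z + t * I) * (z + t * I) ^ j

variable {g g' : ℂ → ℂ}

theorem VDecay.diff_mul_pow (hg : VDecay g) (j : ℕ) :
    DifferentiableOn ℂ (fun z => g z * z ^ j) upperSet :=
  hg.diff.mul (differentiable_pow j).differentiableOn

theorem VDecay.strip_bound (hg : VDecay g) (j : ℕ) (R : ℝ) {y₀ : ℝ} (hy : 0 < y₀) :
    ∃ c > 0, ∃ C, 0 ≤ C ∧ ∀ z : ℂ, |z.re| ≤ R → y₀ ≤ z.im →
      ‖g z * z ^ j‖ ≤ C * Real.exp (-c * z.im) := by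
  obtain ⟨c, hc, C, A, hC⟩ := hg.decay
  set K : Set ℂ := Icc (-R) R ×ℂ Icc y₀ A with hK
  have hKc : IsCompact K := isCompact_Icc.reProdIm isCompact_Icc
  have hKs : K ⊆ upperSet := fun z hz => lt_of_lt_of_le hy hz.2.1
  obtain ⟨M, hM⟩ := (hKc.image_of_continuousOn
    ((hg.diff_mul_pow j).continuousOn.mono hKs)).isBounded.exists_norm_le
  refine ⟨c / 2, half_pos hc, max (max M 0 * Real.exp (c / 2 * A))
    (max C 0 * (j.factorial / (c / 2) ^ j) * Real.exp (c / 2 * |R|)),
    le_max_of_le_left (by positivity), fun z hre him => ?_⟩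
  rcases le_or_gt z.im A with hA | hA
  · have hz : z ∈ K := ⟨abs_le.mp hre, him, hA⟩
    have h1 := hM _ (mem_image_of_mem _ hz)
    calc ‖g z * z ^ j‖ ≤ max M 0 * 1 := by rw [mul_one]; exact h1.trans (le_max_left _ _)
      _ ≤ max M 0 * (Real.exp (c / 2 * A) * Real.exp (-(c / 2) * z.im)) := by
        gcongr
        rw [← Real.exp_add, Real.one_le_exp_iff]
        nlinarith
      _ ≤ _ := by
        rw [← mul_assoc]
        gcongr
        exact le_max_left _ _
  · have him0 : 0 < z.im := hy.trans_le him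
    have hR : |z.re| + |z.im| ≤ |R| + z.im := by
      rw [abs_of_pos him0]; linarith [le_abs_self R]
    have hpow : ‖z‖ ^ j ≤ (j.factorial / (c / 2) ^ j) * Real.exp (c / 2 * (|R| + z.im)) := by
      have h0 : 0 ≤ |R| + z.im := by positivity
      calc ‖z‖ ^ j ≤ (|R| + z.im) ^ j := by
            gcongr
            exact (Complex.norm_le_abs_re_add_abs_im z).trans hR
        _ = (j.factorial / (c / 2) ^ j) * ((c / 2 * (|R| + z.im)) ^ j / j.factorial) := by
            rw [mul_pow]; field_simp
        _ ≤ _ := by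
            gcongr
            exact Real.pow_div_factorial_le_exp _ (by positivity) j
    calc ‖g z * z ^ j‖ = ‖g z‖ * ‖z‖ ^ j := by simp
      _ ≤ (max C 0 * Real.exp (-c * z.im)) *
          ((j.factorial / (c / 2) ^ j) * Real.exp (c / 2 * (|R| + z.im))) := by
        refine mul_le_mul ((hC z hA.le).trans ?_) hpow (by positivity) (by positivity)
        gcongr
        exact le_max_left _ _
      _ = (max C 0 * (j.factorial / (c / 2) ^ j) * Real.exp (c / 2 * |R|)) *
          Real.exp (-(c / 2) * z.im) := by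
        have : Real.exp (-c * z.im) * Real.exp (c / 2 * (|R| + z.im)) =
            Real.exp (c / 2 * |R|) * Real.exp (-(c / 2) * z.im) := by
          rw [← Real.exp_add, ← Real.exp_add]; ring_nf
        linear_combination (max C 0 * (j.factorial / (c / 2) ^ j)) * this
      _ ≤ _ := by gcongr; exact le_max_right _ _

theorem integrableOn_exp_decay {c : ℝ} (hc : 0 < c) (C y : ℝ) :
    IntegrableOn (fun t : ℝ => C * Real.exp (-c * (y + t))) (Ioi 0) := by
  have : (fun t : ℝ => C * Real.exp (-c * (y + t))) =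
      fun t => (C * Real.exp (-c * y)) * Real.exp (-c * t) := by
    funext t; rw [mul_assoc, ← Real.exp_add]; ring_nf
  rw [this]
  exact (exp_neg_integrableOn_Ioi 0 hc).const_mul _

theorem VDecay.integrableOn_ray (hg : VDecay g) (j : ℕ) {z : ℂ} (hz : z ∈ upperSet) :
    IntegrableOn (fun t : ℝ => g (z + t * I) * (z + t * I) ^ j) (Ioi 0) := by
  obtain ⟨c, hc, C, -, hC⟩ := hg.strip_bound j |z.re| (show 0 < z.im from hz)
  refine Integrable.mono' (integrableOn_exp_decay hc C z.im) ?_ ?_
  · refine ContinuousOn.aestronglyMeasurable ?_ measurableSet_Ioi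
    exact (hg.diff_mul_pow j).continuousOn.comp (by fun_prop)
      fun t ht => upperSet_add_mul_I hz (le_of_lt ht)
  · refine (ae_restrict_iff' measurableSet_Ioi).mpr (Eventually.of_forall fun t ht => ?_)
    simpa using hC (z + t * I) (by simp) (by simp; exact le_of_lt ht)

theorem VDecay.exists_primitive (hg : VDecay g) (j : ℕ) :
    ∃ (W : ℂ → ℂ) (L : ℂ), (∀ z ∈ upperSet, HasDerivAt W (g z * z ^ j) z) ∧
      (∀ z ∈ upperSet, momInt g j z = W z - L) ∧
      ∀ z ∈ upperSet, Tendsto (fun t : ℝ => W (z + t * I)) atTop (𝓝 L) := by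
  obtain ⟨W, hW⟩ := convex_upperSet.exists_forall_hasDerivWithinAt (hg.diff_mul_pow j)
  have hW' : ∀ z ∈ upperSet, HasDerivAt W (g z * z ^ j) z := fun z hz =>
    (hW z hz).hasDerivAt (isOpen_upperSet.mem_nhds hz)
  have hline : ∀ (z : ℂ) (t : ℝ), z + t * I ∈ upperSet →
      HasDerivAt (fun s : ℝ => W (z + s * I)) (g (z + t * I) * (z + t * I) ^ j * I) t := by
    intro z t ht
    have h : HasDerivAt (fun s : ℂ => z + s * I) I (t : ℂ) := by
      simpa using ((hasDerivAt_id (t : ℂ)).mul_const I).const_add z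
    exact ((hW' _ ht).comp (t : ℂ) h).comp_ofReal
  have hlim : ∀ z ∈ upperSet, ∃ L, Tendsto (fun t : ℝ => W (z + t * I)) atTop (𝓝 L) ∧
      momInt g j z = W z - L := by
    intro z hz
    have hd : ∀ t ∈ Ici (0 : ℝ), HasDerivAt (fun s : ℝ => W (z + s * I))
        (g (z + t * I) * (z + t * I) ^ j * I) t :=
      fun t ht => hline z t (upperSet_add_mul_I hz ht)
    have hi : IntegrableOn (fun t : ℝ => g (z + t * I) * (z + t * I) ^ j * I) (Ioi 0) :=
      (hg.integrableOn_ray j hz).mul_const I
    have ht := tendsto_limUnder_of_hasDerivAt_of_integrableOn_Ioi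
      (a := (0 : ℝ)) (fun t ht => hd t (mem_Ici.mpr (le_of_lt (mem_Ioi.mp ht)))) hi
    refine ⟨_, ht, ?_⟩
    have h2 := integral_Ioi_of_hasDerivAt_of_tendsto' hd hi ht
    rw [integral_mul_const] at h2
    simp only [Complex.ofReal_zero, zero_mul, add_zero] at h2
    rw [momInt]
    linear_combination -h2
  choose! L hL hL' using hlim
  refine ⟨W, L Complex.I, hW', ?_⟩
  suffices h : ∀ z ∈ upperSet, L z = L Complex.I from
    ⟨fun z hz => by rw [hL' z hz, h z hz], fun z hz => h z hz ▸ hL z hz⟩
  intro z hz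
  have hI : I ∈ upperSet := by simp [upperSet]
  have hsame : ∀ z ∈ upperSet,
      Tendsto (fun y : ℝ => W ((z.re : ℂ) + y * I)) atTop (𝓝 (L z)) := by
    intro z hz
    refine ((hL z hz).comp (tendsto_atTop_add_const_right atTop (-z.im) tendsto_id)).congr
      fun y => ?_
    simp only [Function.comp_apply, id]
    congr 1
    apply Complex.ext <;> simp
  obtain ⟨c, hc, C, hC0, hC⟩ := hg.strip_bound j |z.re| one_pos
  have hest : ∀ᶠ y : ℝ in atTop, ‖W ((z.re : ℂ) + y * I) - W ((0 : ℂ) + y * I)‖ ≤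
      |z.re| * (C * Real.exp (-c * y)) := by
    filter_upwards [eventually_ge_atTop (1 : ℝ)] with y hy
    have hseg : segment ℝ ((0 : ℂ) + y * I) ((z.re : ℂ) + y * I) ⊆
        {w : ℂ | |w.re| ≤ |z.re| ∧ w.im = y} := by
      intro w hw
      obtain ⟨a, b, ha, hb, hab, rfl⟩ := hw
      refine ⟨?_, ?_⟩
      · simp only [Complex.add_re, Complex.real_smul, Complex.mul_re, Complex.ofReal_re,
          Complex.ofReal_im, Complex.add_im, Complex.mul_im, Complex.I_re, Complex.I_im,
          Complex.zero_re, Complex.zero_im]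
        ring_nf
        rw [abs_mul, abs_of_nonneg hb]
        nlinarith [abs_nonneg z.re]
      · simp only [Complex.add_im, Complex.real_smul, Complex.mul_re, Complex.ofReal_re,
          Complex.ofReal_im, Complex.add_re, Complex.mul_im, Complex.I_re, Complex.I_im,
          Complex.zero_re, Complex.zero_im]
        linear_combination y * hab
    have := (convex_segment _ _).norm_image_sub_le_of_norm_hasDerivWithin_le
      (f := W) (C := C * Real.exp (-c * y))
      (fun w hw => (hW' w (show 0 < w.im by rw [(hseg hw).2]; linarith)).hasDerivWithinAt)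
      (fun w hw => (hseg hw).2 ▸ hC w (hseg hw).1 (by rw [(hseg hw).2]; exact hy))
      (left_mem_segment ℝ _ _) (right_mem_segment ℝ ((0 : ℂ) + y * I) ((z.re : ℂ) + y * I))
    refine this.trans_eq ?_
    rw [mul_comm]
    simp
  have hz0 : Tendsto (fun y : ℝ => |z.re| * (C * Real.exp (-c * y))) atTop (𝓝 0) := by
    simpa using ((Real.tendsto_exp_atBot.comp
      (tendsto_id.const_mul_atTop_of_neg (by linarith : -c < 0))).const_mul C).const_mul |z.re|
  have hdiff := squeeze_zero_norm' hest hz0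
  have hI' : Tendsto (fun y : ℝ => W ((0 : ℂ) + y * I)) atTop (𝓝 (L I)) := by
    simpa using hsame I hI
  exact sub_eq_zero.mp (tendsto_nhds_unique ((hsame z hz).sub hI') hdiff)

theorem hasDerivAt_momInt (hg : VDecay g) (j : ℕ) {z : ℂ} (hz : z ∈ upperSet) :
    HasDerivAt (momInt g j) (g z * z ^ j) z := by
  obtain ⟨W, L, hW, hM, -⟩ := hg.exists_primitive j
  refine ((hW z hz).sub_const L).congr_of_eventuallyEq ?_
  filter_upwards [isOpen_upperSet.mem_nhds hz] with w hw using hM w hw

theorem tendsto_momInt (hg : VDecay g) (j : ℕ) {z : ℂ} (hz : z ∈ upperSet) :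
    Tendsto (fun t : ℝ => momInt g j (z + t * I)) atTop (𝓝 0) := by
  obtain ⟨W, L, -, hM, hL⟩ := hg.exists_primitive j
  have := (hL z hz).sub_const L
  rw [sub_self] at this
  refine this.congr' ?_
  filter_upwards [eventually_ge_atTop (0 : ℝ)] with t ht using
    (hM _ (upperSet_add_mul_I hz ht)).symm

theorem eqOn_of_hasDerivAt_of_tendsto {F G h : ℂ → ℂ}
    (hF : ∀ z ∈ upperSet, HasDerivAt F (h z) z) (hG : ∀ z ∈ upperSet, HasDerivAt G (h z) z)
    {z₀ : ℂ} (hz₀ : z₀ ∈ upperSet)
    (h0 : Tendsto (fun t : ℝ => F (z₀ + t * I) - G (z₀ + t * I)) atTop (𝓝 0)) :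
    EqOn F G upperSet := by
  intro z hz
  obtain ⟨a, ha⟩ := isOpen_upperSet.exists_is_const_of_deriv_eq_zero
    (f := fun w => F w - G w) convex_upperSet.isPreconnected
    (fun w hw => ((hF w hw).sub (hG w hw)).differentiableAt.differentiableWithinAt)
    (fun w hw => by simpa [Pi.sub_def] using ((hF w hw).sub (hG w hw)).deriv)
  have hlim : Tendsto (fun t : ℝ => F (z₀ + t * I) - G (z₀ + t * I)) atTop (𝓝 a) := by
    refine tendsto_const_nhds.congr' ?_
    filter_upwards [eventually_ge_atTop (0 : ℝ)] with t ht using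
      (ha _ (upperSet_add_mul_I hz₀ ht)).symm
  exact sub_eq_zero.mp ((ha z hz).trans (tendsto_nhds_unique hlim h0))

theorem momInt_congr (h : EqOn g g' upperSet) (j : ℕ) {z : ℂ} (hz : z ∈ upperSet) :
    momInt g j z = momInt g' j z := by
  rw [momInt, momInt]
  congr 1
  exact setIntegral_congr_fun measurableSet_Ioi fun t ht => by
    rw [h (upperSet_add_mul_I hz (le_of_lt ht))]

theorem VDecay.add (hg : VDecay g) (hg' : VDecay g') : VDecay (fun z => g z + g' z) where
  diff := hg.diff.add hg'.diff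
  decay := by
    obtain ⟨c, hc, C, A, hC⟩ := hg.decay
    obtain ⟨c', hc', C', A', hC'⟩ := hg'.decay
    refine ⟨min c c', lt_min hc hc', max C 0 + max C' 0, max (max A A') 0, fun z hz => ?_⟩
    have h0 : 0 ≤ z.im := (le_max_right _ _).trans hz
    have hA := (le_max_left _ _).trans hz
    refine (norm_add_le _ _).trans ?_
    rw [add_mul]
    refine add_le_add ((hC z ((le_max_left _ _).trans hA)).trans ?_)
      ((hC' z ((le_max_right _ _).trans hA)).trans ?_)
    · refine mul_le_mul (le_max_left _ _) (Real.exp_le_exp.mpr ?_) (Real.exp_pos _).le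
        (le_max_right _ _)
      nlinarith [min_le_left c c']
    · refine mul_le_mul (le_max_left _ _) (Real.exp_le_exp.mpr ?_) (Real.exp_pos _).le
        (le_max_right _ _)
      nlinarith [min_le_right c c']

theorem momInt_add (hg : VDecay g) (hg' : VDecay g') (j : ℕ) {z : ℂ} (hz : z ∈ upperSet) :
    momInt (fun w => g w + g' w) j z = momInt g j z + momInt g' j z := by
  rw [momInt, momInt, momInt, ← mul_add, ← integral_add (hg.integrableOn_ray j hz)
    (hg'.integrableOn_ray j hz)]
  congr 2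
  funext t
  ring

theorem momInt_const_mul (a : ℂ) (j : ℕ) (z : ℂ) :
    momInt (fun w => a * g w) j z = a * momInt g j z := by
  simp only [momInt, mul_assoc]
  rw [integral_const_mul]
  ring

/-- The Eichler integral `∫_{i∞}^z g(w) (z - w) ^ n dw`. -/
noncomputable def eichInt (n : ℕ) (g : ℂ → ℂ) (z : ℂ) : ℂ :=
  ∑ i ∈ Finset.range (n + 1), (n.choose i : ℂ) * (-1) ^ i * z ^ (n - i) * momInt g i z

theorem eichInt_eq_integral (hg : VDecay g) (n : ℕ) {z : ℂ} (hz : z ∈ upperSet) :
    eichInt n g z = -I * ∫ t in Ioi (0 : ℝ), g (z + t * I) * (-(t * I)) ^ n := by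
  simp only [eichInt, momInt, mul_left_comm _ (-I), ← Finset.mul_sum]
  congr 1
  simp only [← integral_const_mul]
  rw [← integral_finsetSum _ fun i _ => ((hg.integrableOn_ray i hz).const_mul _)]
  refine setIntegral_congr_fun measurableSet_Ioi fun t _ => ?_
  have hb : (-(t * I)) ^ n = (-(z + t * I) + z) ^ n := by ring_nf
  rw [hb, add_pow, Finset.mul_sum]
  refine Finset.sum_congr rfl fun i _ => ?_
  rw [neg_pow (z + t * I) i]
  generalize z + t * I = w
  ring

theorem eichInt_periodic (hg : VDecay g) (n : ℕ) {h : ℝ}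
    (hper : ∀ w ∈ upperSet, g (w + h) = g w) {z : ℂ} (hz : z ∈ upperSet) :
    eichInt n g (z + h) = eichInt n g z := by
  have hz' : z + (h : ℂ) ∈ upperSet := by simpa [upperSet] using hz
  rw [eichInt_eq_integral hg n hz, eichInt_eq_integral hg n hz']
  congr 1
  refine setIntegral_congr_fun measurableSet_Ioi fun t ht => ?_
  rw [show z + (h : ℂ) + t * I = z + t * I + h by ring,
    hper _ (upperSet_add_mul_I hz (le_of_lt ht))]

theorem eichInt_exp_bound (hg : VDecay g) (n : ℕ) :
    ∃ c > 0, ∃ C A : ℝ, ∀ z : ℂ, A ≤ z.im → ‖eichInt n g z‖ ≤ C * Real.exp (-c * z.im) := by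
  obtain ⟨c, hc, C, A, hC⟩ := hg.decay
  refine ⟨c / 2, half_pos hc, max C 0 * (n.factorial / (c / 2) ^ n) *
    ∫ t in Ioi (0 : ℝ), Real.exp (-(c / 2) * t), max A 1, fun z hz => ?_⟩
  have hy : (1 : ℝ) ≤ z.im := (le_max_right _ _).trans hz
  have hzU : z ∈ upperSet := lt_of_lt_of_le one_pos hy
  set K : ℝ := max C 0 * (n.factorial / (c / 2) ^ n) * Real.exp (-(c / 2) * z.im)
  have hbound : ∀ t ∈ Ioi (0 : ℝ),
      ‖g (z + t * I) * (-(t * I)) ^ n‖ ≤ K * Real.exp (-(c / 2) * t) := by
    intro t ht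
    have ht0 : 0 ≤ t := le_of_lt ht
    have hpow : t ^ n ≤ (n.factorial / (c / 2) ^ n) * Real.exp (c / 2 * t) := by
      calc t ^ n = (n.factorial / (c / 2) ^ n) * ((c / 2 * t) ^ n / n.factorial) := by
            rw [mul_pow]; field_simp
        _ ≤ _ := by
            gcongr
            exact Real.pow_div_factorial_le_exp _ (by positivity) n
    calc ‖g (z + t * I) * (-(t * I)) ^ n‖ = ‖g (z + t * I)‖ * t ^ n := by
          simp [abs_of_nonneg ht0]
      _ ≤ (max C 0 * Real.exp (-c * (z.im + t))) *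
          ((n.factorial / (c / 2) ^ n) * Real.exp (c / 2 * t)) := by
          refine mul_le_mul ?_ hpow (by positivity) (by positivity)
          refine (hC _ ?_).trans ?_
          · simp; linarith [(le_max_left _ _).trans hz]
          · have : (z + t * I).im = z.im + t := by simp
            rw [this]
            gcongr
            exact le_max_left _ _
      _ ≤ (max C 0 * (n.factorial / (c / 2) ^ n)) *
          (Real.exp (-(c / 2) * z.im) * Real.exp (-(c / 2) * t)) := by
          rw [mul_mul_mul_comm]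
          refine mul_le_mul_of_nonneg_left ?_ (by positivity)
          rw [← Real.exp_add, ← Real.exp_add, Real.exp_le_exp]
          nlinarith
      _ = _ := by simp only [K]; ring
  rw [eichInt_eq_integral hg n hzU, norm_mul, norm_neg, Complex.norm_I, one_mul]
  refine (norm_integral_le_of_norm_le ((exp_neg_integrableOn_Ioi 0 (half_pos hc)).const_mul K)
    ((ae_restrict_iff' measurableSet_Ioi).mpr (Eventually.of_forall hbound))).trans_eq ?_
  rw [integral_const_mul]
  ring

theorem hasDerivAt_eichInt_succ (hg : VDecay g) (n : ℕ) {z : ℂ} (hz : z ∈ upperSet) :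
    HasDerivAt (eichInt (n + 1) g) ((n + 1 : ℂ) * eichInt n g z) z := by
  have hterm : ∀ i ∈ Finset.range (n + 1 + 1), HasDerivAt
      (fun w => ((n + 1).choose i : ℂ) * (-1) ^ i * w ^ (n + 1 - i) * momInt g i w)
      (((n + 1).choose i : ℂ) * (-1) ^ i *
        (((n + 1 - i : ℕ) : ℂ) * z ^ (n + 1 - i - 1)) * momInt g i z +
        ((n + 1).choose i : ℂ) * (-1) ^ i * z ^ (n + 1 - i) * (g z * z ^ i)) z :=
    fun i _ => (((hasDerivAt_pow (n + 1 - i) z).const_mul _).mul (hasDerivAt_momInt hg i hz))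
  have hsum := HasDerivAt.fun_sum hterm
  have h0 : ∑ i ∈ Finset.range (n + 1 + 1),
      ((n + 1).choose i : ℂ) * (-1) ^ i * z ^ (n + 1 - i) * (g z * z ^ i) = 0 := by
    have := add_pow (-z) z (n + 1)
    rw [neg_add_cancel, zero_pow (Nat.succ_ne_zero n)] at this
    rw [← mul_zero (g z), this, Finset.mul_sum]
    refine Finset.sum_congr rfl fun i _ => ?_
    rw [neg_pow z i]
    ring
  refine hsum.congr_deriv ?_
  rw [Finset.sum_add_distrib, h0, add_zero, Finset.sum_range_succ, Nat.sub_self, eichInt,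
    Finset.mul_sum]
  simp only [Nat.cast_zero, zero_mul, mul_zero, add_zero]
  refine Finset.sum_congr rfl fun i hi => ?_
  have hchoose : ((n + 1).choose i : ℂ) * ((n + 1 - i : ℕ) : ℂ) =
      (n + 1 : ℂ) * (n.choose i : ℂ) := by
    have := Nat.choose_mul_succ_eq n i
    exact_mod_cast this.symm.trans (mul_comm _ _)
  rw [show n + 1 - i - 1 = n - i by omega]
  linear_combination ((-1) ^ i * z ^ (n - i) * momInt g i z) * hchoose

theorem eqOn_zero_of_eichInt (hg : VDecay g) (n : ℕ) (h : EqOn (eichInt n g) 0 upperSet) :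
    EqOn g 0 upperSet := by
  induction n with
  | zero =>
    intro z hz
    have h1 : EqOn (momInt g 0) 0 upperSet := fun w hw => by simpa [eichInt] using h hw
    have h2 : deriv (momInt g 0) z = 0 := by
      rw [(h1.eventuallyEq_of_mem (isOpen_upperSet.mem_nhds hz)).deriv_eq]
      exact deriv_const z 0
    rw [(hasDerivAt_momInt hg 0 hz).deriv] at h2
    simpa using h2
  | succ n ih =>
    refine ih fun z hz => ?_
    have h2 : deriv (eichInt (n + 1) g) z = 0 := by
      rw [(h.eventuallyEq_of_mem (isOpen_upperSet.mem_nhds hz)).deriv_eq]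
      exact deriv_const z 0
    rw [(hasDerivAt_eichInt_succ hg n hz).deriv] at h2
    exact (mul_eq_zero.mp h2).resolve_left (Nat.cast_add_one_ne_zero n)

end FermatAgent.Periods
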