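import Mathlib

/-!
The integral matrices `momMat n A` describing the substitution `u ↦ (d u - b) / (a - c u)` on
homogeneous polynomials of degree `n`, Möbius maps of `ℂ`, and the identity relating weight `n + 2`
slashes to moments `f(w) w ^ i dw`.
-/

set_option autoImplicit false

namespace FermatAgent.Periods

open Polynomial

variable (n : ℕ)

/-- The polynomial `(d X - b) ^ i (a - c X) ^ (n - i)` for `A = !![a, b; c, d]`. -/
noncomputable def momPoly (A : Matrix (Fin 2) (Fin 2) ℤ) (i : ℕ) : ℤ[X] :=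
  (C (A 1 1) * X - C (A 0 1)) ^ i * (C (A 0 0) - C (A 1 0) * X) ^ (n - i)

/-- The matrix of the coefficients of the polynomials `momPoly n A i`, `i ≤ n`. -/
noncomputable def momMat (A : Matrix (Fin 2) (Fin 2) ℤ) :
    Matrix (Fin (n + 1)) (Fin (n + 1)) ℤ :=
  fun i j => (momPoly n A i).coeff j

theorem natDegree_momPoly_le (A : Matrix (Fin 2) (Fin 2) ℤ) {i : ℕ} (hi : i ≤ n) :
    (momPoly n A i).natDegree ≤ n := by
  have h1 : (C (A 1 1) * X - C (A 0 1)).natDegree ≤ 1 := by compute_degree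
  have h2 : (C (A 0 0) - C (A 1 0) * X).natDegree ≤ 1 := by compute_degree
  refine natDegree_mul_le.trans ?_
  refine (add_le_add natDegree_pow_le natDegree_pow_le).trans ?_
  calc i * _ + (n - i) * _ ≤ i * 1 + (n - i) * 1 :=
        add_le_add (Nat.mul_le_mul_left _ h1) (Nat.mul_le_mul_left _ h2)
    _ = n := by omega

variable {R : Type*} [CommRing R]

theorem momMat_eval (A : Matrix (Fin 2) (Fin 2) ℤ) (i : Fin (n + 1)) (u : R) :
    ∑ j : Fin (n + 1), (momMat n A i j : R) * u ^ (j : ℕ) =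
      ((A 1 1 : R) * u - (A 0 1 : R)) ^ (i : ℕ) *
        ((A 0 0 : R) - (A 1 0 : R) * u) ^ (n - i) := by
  have h := aeval_eq_sum_range' (p := momPoly n A i)
    (Nat.lt_succ_of_le (natDegree_momPoly_le n A (Nat.lt_succ_iff.mp i.2))) u
  refine (Fin.sum_univ_eq_sum_range (fun j => ((momPoly n A i).coeff j : R) * u ^ j) (n + 1)).trans ?_
  simp only [zsmul_eq_mul, Nat.succ_eq_add_one] at h
  rw [← h]
  simp [momPoly, map_intCast]

theorem momMat_one : momMat n (1 : Matrix (Fin 2) (Fin 2) ℤ) = 1 := by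
  ext i j
  simp [momMat, momPoly, coeff_X_pow, Matrix.one_apply, Fin.val_inj, eq_comm]

theorem coeffs_eq_of_sum_eq {v w : Fin (n + 1) → ℂ} (S : Set ℂ) (hS : S.Infinite)
    (h : ∀ u ∈ S, ∑ j, v j * u ^ (j : ℕ) = ∑ j, w j * u ^ (j : ℕ)) : v = w := by
  have key : ∀ v : Fin (n + 1) → ℂ, ∀ u : ℂ,
      ((degreeLTEquiv ℂ (n + 1)).symm v : ℂ[X]).eval u = ∑ j, v j * u ^ (j : ℕ) := by
    intro v u
    have := eval_eq_sum_degreeLTEquiv ((degreeLTEquiv ℂ (n + 1)).symm v).2 u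
    simpa using this
  apply (degreeLTEquiv ℂ (n + 1)).symm.injective
  apply Subtype.ext
  exact Polynomial.eq_of_infinite_eval_eq _ _ (hS.mono fun u hu => by
    show _ = _
    rw [key, key, h u hu])

/-- `momMat` is an anti-homomorphism on matrices with nonzero determinant. -/
theorem momMat_mul (A B : Matrix (Fin 2) (Fin 2) ℤ) (hA : A.det ≠ 0) :
    momMat n (A * B) = momMat n B * momMat n A := by
  ext i j
  have key : (fun j => (momMat n (A * B) i j : ℂ)) = fun j => ((momMat n B * momMat n A) i j : ℂ) := by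
    apply coeffs_eq_of_sum_eq n {u : ℂ | (A 0 0 : ℂ) - (A 1 0 : ℂ) * u ≠ 0}
    · refine Set.Infinite.mono (s := {u : ℂ | (A 0 0 : ℂ) - (A 1 0 : ℂ) * u = 0}ᶜ)
        (fun u hu => hu) ?_
      refine Set.Finite.infinite_compl ?_
      by_cases hc : A 1 0 = 0
      · have ha : A 0 0 ≠ 0 := fun ha => hA (by rw [Matrix.det_fin_two, hc, ha]; ring)
        simp [hc, ha]
      · refine Set.Finite.subset (Set.finite_singleton ((A 0 0 : ℂ) / A 1 0)) fun u hu => ?_
        simp only [Set.mem_ofPred_eq, Set.mem_singleton_iff] at hu ⊢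
        rw [eq_div_iff (Int.cast_ne_zero.mpr hc)]
        linear_combination -hu
    · intro u hu
      set w : ℂ := (A 0 0 : ℂ) - (A 1 0 : ℂ) * u with hw
      set v : ℂ := ((A 1 1 : ℂ) * u - (A 0 1 : ℂ)) with hv
      have hu : w ≠ 0 := hu
      simp only [Matrix.mul_apply, Int.cast_sum, Int.cast_mul, Finset.sum_mul, mul_assoc]
      rw [Finset.sum_comm]
      simp only [← Finset.mul_sum]
      simp only [momMat_eval, ← hv, ← hw]
      have hterm : ∀ l : Fin (n + 1), v ^ (l : ℕ) * w ^ (n - l) = w ^ n * (v / w) ^ (l : ℕ) := by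
        intro l
        have hl : (l : ℕ) + (n - l) = n := by omega
        rw [div_pow]
        field_simp
        rw [mul_assoc, ← pow_add, add_comm (n - (l : ℕ)), hl]
      simp only [hterm, mul_left_comm _ (w ^ n), ← Finset.mul_sum, momMat_eval]
      obtain ⟨r, hr⟩ : ∃ r, n = (i : ℕ) + r := ⟨n - i, by omega⟩
      have hwn : w ^ n = w ^ (i : ℕ) * w ^ r := by rw [← pow_add, ← hr]
      rw [hwn, show n - (i : ℕ) = r by omega, mul_mul_mul_comm, ← mul_pow, ← mul_pow]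
      simp only [Matrix.mul_apply, Fin.sum_univ_two, Int.cast_add, Int.cast_mul]
      congr 2 <;> · field_simp; rw [hv, hw]; ring
  exact Int.cast_injective (congrFun key j)

/-- The Möbius map of an integral matrix on `ℂ`. -/
noncomputable def mob (A : Matrix (Fin 2) (Fin 2) ℤ) (z : ℂ) : ℂ :=
  ((A 0 0 : ℂ) * z + (A 0 1 : ℂ)) / ((A 1 0 : ℂ) * z + (A 1 1 : ℂ))

theorem mob_denom_ne_zero (A : Matrix (Fin 2) (Fin 2) ℤ) (hA : A.det ≠ 0) {z : ℂ}
    (hz : 0 < z.im) : (A 1 0 : ℂ) * z + (A 1 1 : ℂ) ≠ 0 := by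
  intro h
  have h1 := congrArg Complex.im h
  have h2 := congrArg Complex.re h
  simp at h1 h2
  rcases h1 with h1 | h1
  · have : A 1 1 = 0 := by simpa [h1] using h2
    exact hA (by rw [Matrix.det_fin_two, h1, this]; ring)
  · linarith

theorem hasDerivAt_mob (A : Matrix (Fin 2) (Fin 2) ℤ) (hA : A.det ≠ 0) {z : ℂ} (hz : 0 < z.im) :
    HasDerivAt (mob A) ((A.det : ℂ) / ((A 1 0 : ℂ) * z + (A 1 1 : ℂ)) ^ 2) z := by
  have hd := mob_denom_ne_zero A hA hz
  have h : HasDerivAt (mob A) (((A 0 0 : ℂ) * 1 * ((A 1 0 : ℂ) * z + (A 1 1 : ℂ)) -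
      ((A 0 0 : ℂ) * z + (A 0 1 : ℂ)) * ((A 1 0 : ℂ) * 1)) /
      ((A 1 0 : ℂ) * z + (A 1 1 : ℂ)) ^ 2) z :=
    (((hasDerivAt_id z).const_mul (A 0 0 : ℂ)).add_const (A 0 1 : ℂ)).div
      (((hasDerivAt_id z).const_mul (A 1 0 : ℂ)).add_const (A 1 1 : ℂ)) hd
  convert h using 2
  rw [Matrix.det_fin_two]
  push_cast
  ring

theorem im_mob_pos (A : Matrix (Fin 2) (Fin 2) ℤ) (hA : 0 < A.det) {z : ℂ} (hz : 0 < z.im) :
    0 < (mob A z).im := by
  have hns : 0 < Complex.normSq ((A 1 0 : ℂ) * z + (A 1 1 : ℂ)) :=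
    Complex.normSq_pos.mpr (mob_denom_ne_zero A hA.ne' hz)
  have : (mob A z).im = (A.det : ℝ) * z.im / Complex.normSq ((A 1 0 : ℂ) * z + (A 1 1 : ℂ)) := by
    rw [mob, Complex.div_im, Matrix.det_fin_two]
    simp only [Complex.add_im, Complex.mul_im, Complex.add_re, Complex.mul_re, Complex.intCast_re,
      Complex.intCast_im]
    push_cast
    ring
  rw [this]
  have : (0 : ℝ) < A.det := by exact_mod_cast hA
  positivity

/-- The weight `n + 2` slash of `g : ℂ → ℂ` by an integral matrix of positive determinant. -/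
noncomputable def slashC (A : Matrix (Fin 2) (Fin 2) ℤ) (g : ℂ → ℂ) (z : ℂ) : ℂ :=
  g (mob A z) * (A.det : ℂ) ^ (n + 1) / ((A 1 0 : ℂ) * z + (A 1 1 : ℂ)) ^ (n + 2)

theorem slashC_mul_pow (A : Matrix (Fin 2) (Fin 2) ℤ) (hA : A.det ≠ 0) (g : ℂ → ℂ) {z : ℂ}
    (hz : 0 < z.im) (i : Fin (n + 1)) :
    slashC n A g z * z ^ (i : ℕ) = ∑ j : Fin (n + 1), (momMat n A i j : ℂ) *
      (g (mob A z) * mob A z ^ (j : ℕ) *
        ((A.det : ℂ) / ((A 1 0 : ℂ) * z + (A 1 1 : ℂ)) ^ 2)) := by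
  have hd := mob_denom_ne_zero A hA hz
  set e := (A 1 0 : ℂ) * z + (A 1 1 : ℂ) with he
  set u := mob A z with hu
  have hne : u * e = (A 0 0 : ℂ) * z + (A 0 1 : ℂ) := div_mul_cancel₀ _ hd
  have h1 : ((A 1 1 : ℂ) * u - (A 0 1 : ℂ)) = (A.det : ℂ) * z / e := by
    rw [eq_div_iff hd, Matrix.det_fin_two]
    push_cast
    linear_combination (A 1 1 : ℂ) * hne - (A 0 1 : ℂ) * he
  have h2 : ((A 0 0 : ℂ) - (A 1 0 : ℂ) * u) = (A.det : ℂ) / e := by
    rw [eq_div_iff hd, Matrix.det_fin_two]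
    push_cast
    linear_combination -(A 1 0 : ℂ) * hne + (A 0 0 : ℂ) * he
  have hm := momMat_eval n A i u
  rw [h1, h2] at hm
  calc slashC n A g z * z ^ (i : ℕ)
      = g u * ((A.det : ℂ) / e ^ 2) * (((A.det : ℂ) * z / e) ^ (i : ℕ) *
          ((A.det : ℂ) / e) ^ (n - i)) := by
        obtain ⟨r, hr⟩ : ∃ r, n = (i : ℕ) + r := ⟨n - i, by omega⟩
        have hdn : (A.det : ℂ) ^ n = (A.det : ℂ) ^ (i : ℕ) * (A.det : ℂ) ^ r := by
          rw [← pow_add, ← hr]
        have hen : e ^ n = e ^ (i : ℕ) * e ^ r := by rw [← pow_add, ← hr]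
        rw [mul_div_assoc (A.det : ℂ) z e, mul_pow, div_pow (A.det : ℂ) e, div_pow z e]
        simp only [slashC, ← he, ← hu]
        rw [pow_succ' _ n, pow_add e n 2, hdn, hen, show n - (i : ℕ) = r by omega]
        field_simp
    _ = _ := by
        rw [← hm, Finset.mul_sum]
        exact Finset.sum_congr rfl fun j _ => by ring

end FermatAgent.Periods
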