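import Mathlib
import Fermat.Agent.Periods.MomentMatrix
import Fermat.Agent.Periods.HalfPlanePrimitive

/-!
Period cocycles of holomorphic functions decaying at `i∞`, normalised at `i∞`, and their behaviour
under Hecke correspondences fixing `∞`.
-/

set_option autoImplicit false

namespace FermatAgent.Periods

open Complex Filter Topology Set

variable (n : ℕ) {g : ℂ → ℂ}

/-- The vector of the moments `momInt g i z`, `i ≤ n`. -/
noncomputable def momVec (g : ℂ → ℂ) (z : ℂ) : Fin (n + 1) → ℂ := fun i => momInt g i z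

/-- The moment vector of `g` at `A z`, transformed by `momMat n A`. -/
noncomputable def pullVec (A : Matrix (Fin 2) (Fin 2) ℤ) (g : ℂ → ℂ) (z : ℂ) : Fin (n + 1) → ℂ :=
  ((momMat n A).map (Int.cast : ℤ → ℂ)).mulVec (momVec n g (mob A z))

/-- The period of `g` at `A`, from `i∞`. -/
noncomputable def periodVec (g : ℂ → ℂ) (A : Matrix (Fin 2) (Fin 2) ℤ) : Fin (n + 1) → ℂ :=
  pullVec n A g I - momVec n g I

/-- Weight `n + 2` invariance on the upper half-plane. -/
def IsInvariantUnder (g : ℂ → ℂ) (A : Matrix (Fin 2) (Fin 2) ℤ) : Prop :=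
  EqOn (slashC n A g) g upperSet

theorem hasDerivAt_pullVec (hg : VDecay g) (A : Matrix (Fin 2) (Fin 2) ℤ) (hA : 0 < A.det)
    (i : Fin (n + 1)) {z : ℂ} (hz : z ∈ upperSet) :
    HasDerivAt (fun w => pullVec n A g w i) (slashC n A g z * z ^ (i : ℕ)) z := by
  rw [slashC_mul_pow n A hA.ne' g hz i]
  have h : ∀ j ∈ (Finset.univ : Finset (Fin (n + 1))),
      HasDerivAt (fun w => (momMat n A i j : ℂ) * momInt g j (mob A w))
        ((momMat n A i j : ℂ) * (g (mob A z) * mob A z ^ (j : ℕ) *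
          ((A.det : ℂ) / ((A 1 0 : ℂ) * z + (A 1 1 : ℂ)) ^ 2))) z :=
    fun j _ => ((hasDerivAt_momInt hg j (im_mob_pos A hA hz)).comp z
      (hasDerivAt_mob A hA.ne' hz)).const_mul _
  exact HasDerivAt.fun_sum h

theorem I_mem_upperSet : I ∈ upperSet := by simp [upperSet]

theorem exists_pullVec_eq_add (hg : VDecay g) {g' : ℂ → ℂ} (hg' : VDecay g')
    (A : Matrix (Fin 2) (Fin 2) ℤ) (hA : 0 < A.det) (h : EqOn (slashC n A g) g' upperSet) :
    ∃ c : Fin (n + 1) → ℂ, ∀ z ∈ upperSet, pullVec n A g z = momVec n g' z + c := by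
  refine ⟨pullVec n A g I - momVec n g' I, fun z hz => ?_⟩
  funext i
  have hd : ∀ w ∈ upperSet, HasDerivAt (fun w => pullVec n A g w i - momInt g' i w) 0 w := by
    intro w hw
    have := (hasDerivAt_pullVec n hg A hA i hw).sub (hasDerivAt_momInt hg' i hw)
    rwa [h hw, sub_self] at this
  have hc := isOpen_upperSet.is_const_of_deriv_eq_zero convex_upperSet.isPreconnected
    (fun w hw => (hd w hw).differentiableAt.differentiableWithinAt)
    (fun w hw => (hd w hw).deriv) hz I_mem_upperSet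
  simp only [momVec, Pi.add_apply, Pi.sub_apply] at hc ⊢
  linear_combination hc

theorem pullVec_eq_add_periodVec (hg : VDecay g) {A : Matrix (Fin 2) (Fin 2) ℤ} (hA : 0 < A.det)
    (hinv : IsInvariantUnder n g A) {z : ℂ} (hz : z ∈ upperSet) :
    pullVec n A g z = momVec n g z + periodVec n g A := by
  obtain ⟨c, hc⟩ := exists_pullVec_eq_add n hg hg A hA hinv
  rw [hc z hz, periodVec, hc I I_mem_upperSet]
  abel

theorem mob_mul (A B : Matrix (Fin 2) (Fin 2) ℤ) (hB : B.det ≠ 0) {z : ℂ} (hz : z ∈ upperSet) :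
    mob (A * B) z = mob A (mob B z) := by
  have hd := mob_denom_ne_zero B hB hz
  have h0 : mob B z * ((B 1 0 : ℂ) * z + (B 1 1 : ℂ)) = (B 0 0 : ℂ) * z + (B 0 1 : ℂ) :=
    div_mul_cancel₀ _ hd
  generalize mob B z = u at h0
  rw [mob, mob, ← mul_div_mul_right ((A 0 0 : ℂ) * u + (A 0 1 : ℂ)) _ hd]
  simp only [Matrix.mul_apply, Fin.sum_univ_two, Int.cast_add, Int.cast_mul]
  congr 1
  · linear_combination -(A 0 0 : ℂ) * h0
  · linear_combination -(A 1 0 : ℂ) * h0

theorem pullVec_mul (g : ℂ → ℂ) (A B : Matrix (Fin 2) (Fin 2) ℤ) (hA : A.det ≠ 0) (hB : B.det ≠ 0)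
    {z : ℂ} (hz : z ∈ upperSet) :
    pullVec n (A * B) g z =
      ((momMat n B).map (Int.cast : ℤ → ℂ)).mulVec (pullVec n A g (mob B z)) := by
  simp only [pullVec, Matrix.mulVec_mulVec, mob_mul A B hB hz, momMat_mul n A B hA]
  congr 1
  exact Matrix.map_mul (f := Int.castRingHom ℂ)

theorem periodVec_mul (hg : VDecay g) {A B : Matrix (Fin 2) (Fin 2) ℤ} (hA : 0 < A.det)
    (hB : 0 < B.det) (hAi : IsInvariantUnder n g A) (hBi : IsInvariantUnder n g B) :
    periodVec n g (A * B) =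
      periodVec n g B + ((momMat n B).map (Int.cast : ℤ → ℂ)).mulVec (periodVec n g A) := by
  rw [periodVec, pullVec_mul n g A B hA.ne' hB.ne' I_mem_upperSet,
    pullVec_eq_add_periodVec n hg hA hAi (im_mob_pos B hB I_mem_upperSet), Matrix.mulVec_add]
  show pullVec n B g I + _ - momVec n g I = _
  rw [pullVec_eq_add_periodVec n hg hB hBi I_mem_upperSet]
  abel

theorem periodVec_one (g : ℂ → ℂ) : periodVec n g 1 = 0 := by
  have : mob 1 I = I := by simp [mob]
  rw [periodVec, pullVec, momMat_one, this, Matrix.map_one _ Int.cast_zero Int.cast_one,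
    Matrix.one_mulVec, sub_self]

theorem periodVec_congr {g' : ℂ → ℂ} (h : EqOn g g' upperSet) (A : Matrix (Fin 2) (Fin 2) ℤ)
    (hA : 0 < A.det) : periodVec n g A = periodVec n g' A := by
  have key : ∀ w ∈ upperSet, momVec n g w = momVec n g' w := fun w hw =>
    funext fun i => momInt_congr h i hw
  rw [periodVec, periodVec, pullVec, pullVec, key _ I_mem_upperSet,
    key _ (im_mob_pos A hA I_mem_upperSet)]

theorem periodVec_add {g' : ℂ → ℂ} (hg : VDecay g) (hg' : VDecay g')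
    (A : Matrix (Fin 2) (Fin 2) ℤ) (hA : 0 < A.det) :
    periodVec n (fun w => g w + g' w) A = periodVec n g A + periodVec n g' A := by
  have key : ∀ w ∈ upperSet,
      momVec n (fun w => g w + g' w) w = momVec n g w + momVec n g' w :=
    fun w hw => funext fun i => momInt_add hg hg' i hw
  simp only [periodVec, pullVec, key _ I_mem_upperSet, key _ (im_mob_pos A hA I_mem_upperSet),
    Matrix.mulVec_add]
  abel

theorem periodVec_const_mul (a : ℂ) (g : ℂ → ℂ) (A : Matrix (Fin 2) (Fin 2) ℤ) :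
    periodVec n (fun w => a * g w) A = a • periodVec n g A := by
  have key : ∀ w : ℂ, momVec n (fun w => a * g w) w = a • momVec n g w :=
    fun w => funext fun i => momInt_const_mul a i w
  simp only [periodVec, pullVec, key, Matrix.mulVec_smul, smul_sub]

/-- Normalised primitives pull back exactly along upper triangular matrices. -/
theorem momVec_eq_sum_pullVec {ι : Type*} [Fintype ι] (hg : VDecay g) {gT : ℂ → ℂ}
    (hgT : VDecay gT) (A : ι → Matrix (Fin 2) (Fin 2) ℤ) (hA : ∀ i, 0 < (A i).det)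
    (hA0 : ∀ i, A i 1 0 = 0)
    (hT : ∀ z ∈ upperSet, gT z = ∑ i, slashC n (A i) g z) {z : ℂ} (hz : z ∈ upperSet) :
    momVec n gT z = ∑ i, pullVec n (A i) g z := by
  funext k
  rw [Finset.sum_apply]
  refine eqOn_of_hasDerivAt_of_tendsto (F := momInt gT k)
    (G := fun w => ∑ i, pullVec n (A i) g w k) (h := fun w => gT w * w ^ (k : ℕ))
    (fun w hw => hasDerivAt_momInt hgT k hw) ?_ I_mem_upperSet ?_ hz
  · intro w hw
    rw [hT w hw, Finset.sum_mul]
    exact HasDerivAt.fun_sum fun i _ => hasDerivAt_pullVec n hg (A i) (hA i) k hw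
  · have hlim : ∀ i, Tendsto (fun t : ℝ => pullVec n (A i) g (I + t * I) k) atTop (𝓝 0) := by
      intro i
      have hdet : A i 0 0 * A i 1 1 = (A i).det := by rw [Matrix.det_fin_two, hA0 i]; ring
      have hpos : 0 < A i 0 0 * A i 1 1 := hdet ▸ hA i
      have hpos' : (0 : ℝ) < (A i 0 0 : ℝ) / (A i 1 1 : ℝ) := by
        have : (0 : ℝ) < (A i 0 0 : ℝ) * (A i 1 1 : ℝ) := by exact_mod_cast hpos
        rcases lt_trichotomy (A i 1 1 : ℝ) 0 with hd | hd | hd
        · exact div_pos_of_neg_of_neg (by nlinarith) hd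
        · rw [hd] at this; linarith
        · exact div_pos (by nlinarith) hd
      have hmob : ∀ t : ℝ, mob (A i) (I + t * I) =
          mob (A i) I + ((t * ((A i 0 0 : ℝ) / (A i 1 1 : ℝ)) : ℝ) : ℂ) * I := by
        intro t
        simp [mob, hA0 i]
        ring
      have htend : Tendsto (fun t : ℝ => t * ((A i 0 0 : ℝ) / (A i 1 1 : ℝ))) atTop atTop :=
        tendsto_id.atTop_mul_const hpos'
      have hterm : ∀ j : Fin (n + 1), Tendsto
          (fun t : ℝ => (momMat n (A i) k j : ℂ) * momInt g j (mob (A i) (I + t * I))) atTop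
          (𝓝 0) := by
        intro j
        simp only [hmob]
        simpa using ((tendsto_momInt hg j (im_mob_pos (A i) (hA i) I_mem_upperSet)).comp
          htend).const_mul (momMat n (A i) k j : ℂ)
      simpa [pullVec, Matrix.mulVec, dotProduct, momVec] using
        tendsto_finsetSum _ fun j _ => hterm j
    simpa using (tendsto_momInt hgT k I_mem_upperSet).sub (tendsto_finsetSum _ fun i _ => hlim i)

/-- Periods of a Hecke transform: with `A i * γ = δ i * A (σ i)`. -/
theorem periodVec_hecke {ι : Type*} [Fintype ι] (hg : VDecay g) {gT : ℂ → ℂ} (hgT : VDecay gT)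
    (A : ι → Matrix (Fin 2) (Fin 2) ℤ) (hA : ∀ i, 0 < (A i).det) (hA0 : ∀ i, A i 1 0 = 0)
    (hT : ∀ z ∈ upperSet, gT z = ∑ i, slashC n (A i) g z)
    {γ : Matrix (Fin 2) (Fin 2) ℤ} (hγ : 0 < γ.det) (σ : Equiv.Perm ι)
    (δ : ι → Matrix (Fin 2) (Fin 2) ℤ) (hδ : ∀ i, 0 < (δ i).det)
    (hδi : ∀ i, IsInvariantUnder n g (δ i)) (hmove : ∀ i, A i * γ = δ i * A (σ i)) :
    periodVec n gT γ =
      ∑ i, ((momMat n (A (σ i))).map (Int.cast : ℤ → ℂ)).mulVec (periodVec n g (δ i)) := by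
  have h1 : pullVec n γ gT I = ∑ i, pullVec n (A i * γ) g I := by
    rw [pullVec, momVec_eq_sum_pullVec n hg hgT A hA hA0 hT (im_mob_pos γ hγ I_mem_upperSet),
      Matrix.mulVec_sum]
    exact Finset.sum_congr rfl fun i _ =>
      (pullVec_mul n g (A i) γ (hA i).ne' hγ.ne' I_mem_upperSet).symm
  have h2 : ∀ i, pullVec n (A i * γ) g I = pullVec n (A (σ i)) g I +
      ((momMat n (A (σ i))).map (Int.cast : ℤ → ℂ)).mulVec (periodVec n g (δ i)) := by
    intro i
    rw [hmove, pullVec_mul n g _ _ (hδ i).ne' (hA _).ne' I_mem_upperSet,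
      pullVec_eq_add_periodVec n hg (hδ i) (hδi i) (im_mob_pos _ (hA _) I_mem_upperSet),
      Matrix.mulVec_add]
    rfl
  rw [periodVec, h1, momVec_eq_sum_pullVec n hg hgT A hA hA0 hT I_mem_upperSet]
  simp only [h2, Finset.sum_add_distrib]
  rw [Equiv.sum_comp σ fun i => pullVec n (A i) g I]
  abel

/-! ### Eichler integral under Möbius maps -/

/-- The pairing of a vector with the signed binomial monomials in `z`. -/
noncomputable def eichPair (z : ℂ) (v : Fin (n + 1) → ℂ) : ℂ :=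
  ∑ i : Fin (n + 1), (n.choose i : ℂ) * (-1) ^ (i : ℕ) * z ^ (n - i) * v i

theorem eichPair_momVec (g : ℂ → ℂ) (z : ℂ) : eichPair n z (momVec n g z) = eichInt n g z :=
  Fin.sum_univ_eq_sum_range
    (fun i => (n.choose i : ℂ) * (-1) ^ i * z ^ (n - i) * momInt g i z) (n + 1)

theorem eichPair_add (z : ℂ) (v w : Fin (n + 1) → ℂ) :
    eichPair n z (v + w) = eichPair n z v + eichPair n z w := by
  simp [eichPair, mul_add, Finset.sum_add_distrib]

theorem eichPair_pullVec (A : Matrix (Fin 2) (Fin 2) ℤ) (hA : A.det ≠ 0) (g : ℂ → ℂ) {z : ℂ}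
    (hz : z ∈ upperSet) :
    eichPair n z (pullVec n A g z) =
      ((A 1 0 : ℂ) * z + (A 1 1 : ℂ)) ^ n * eichInt n g (mob A z) := by
  set P : ℂ := (A 0 0 : ℂ) * z + (A 0 1 : ℂ) with hP
  set Q : ℂ := (A 1 0 : ℂ) * z + (A 1 1 : ℂ) with hQ
  have key : (fun j : Fin (n + 1) =>
      ∑ i : Fin (n + 1), (n.choose i : ℂ) * (-1) ^ (i : ℕ) * z ^ (n - i) * (momMat n A i j : ℂ)) =
      fun j : Fin (n + 1) => (n.choose j : ℂ) * (-1) ^ (j : ℕ) * P ^ (n - (j : ℕ)) * Q ^ (j : ℕ) := by
    refine coeffs_eq_of_sum_eq n univ infinite_univ fun u _ => ?_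
    simp only [Finset.sum_mul, mul_assoc]
    rw [Finset.sum_comm]
    simp only [← Finset.mul_sum, momMat_eval]
    rw [Fin.sum_univ_eq_sum_range (fun i => (n.choose i : ℂ) * ((-1) ^ i * (z ^ (n - i) *
        (((A 1 1 : ℂ) * u - (A 0 1 : ℂ)) ^ i * ((A 0 0 : ℂ) - (A 1 0 : ℂ) * u) ^ (n - i))))) (n + 1),
      Fin.sum_univ_eq_sum_range (fun j => (n.choose j : ℂ) * ((-1) ^ j * (P ^ (n - j) *
        (Q ^ j * u ^ j)))) (n + 1)]
    have hL := add_pow (-((A 1 1 : ℂ) * u - (A 0 1 : ℂ))) (z * ((A 0 0 : ℂ) - (A 1 0 : ℂ) * u)) n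
    have hR := add_pow (-(Q * u)) P n
    have he : -((A 1 1 : ℂ) * u - (A 0 1 : ℂ)) + z * ((A 0 0 : ℂ) - (A 1 0 : ℂ) * u) =
        -(Q * u) + P := by rw [hP, hQ]; ring
    rw [he, hR] at hL
    refine Eq.trans ?_ (hL.symm.trans ?_)
    · refine Finset.sum_congr rfl fun i _ => ?_
      rw [neg_pow (_ - _) i, mul_pow z]
      ring
    · refine Finset.sum_congr rfl fun i _ => ?_
      rw [neg_pow (Q * u) i, mul_pow Q]
      ring
  have hcalc : eichPair n z (pullVec n A g z) =
      ∑ j : Fin (n + 1), ((n.choose j : ℂ) * (-1) ^ (j : ℕ) * P ^ (n - (j : ℕ)) * Q ^ (j : ℕ)) *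
        momInt g j (mob A z) := by
    simp only [eichPair, pullVec, Matrix.mulVec, dotProduct, Matrix.map_apply, momVec,
      Finset.mul_sum]
    rw [Finset.sum_comm]
    refine Finset.sum_congr rfl fun j _ => ?_
    rw [← congrFun key j, Finset.sum_mul]
    exact Finset.sum_congr rfl fun i _ => by ring
  rw [hcalc, ← eichPair_momVec, eichPair, Finset.mul_sum]
  refine Finset.sum_congr rfl fun j _ => ?_
  have hd : Q ≠ 0 := mob_denom_ne_zero A hA hz
  obtain ⟨r, hr⟩ : ∃ r, n = (j : ℕ) + r := ⟨n - j, by omega⟩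
  rw [show n - (j : ℕ) = r by omega]
  have hQn : Q ^ n = Q ^ (j : ℕ) * Q ^ r := by rw [← pow_add, ← hr]
  rw [hQn, mob, ← hP, ← hQ, div_pow, momVec]
  field_simp

end FermatAgent.Periods
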