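import Mathlib
import Fermat.Agent.Periods.EichlerPeriods

/-!
Periods of cusp forms on `Γ₀(N)` of weight `n + 2`: decay, invariance, linearity, injectivity.
-/

set_option autoImplicit false

namespace FermatAgent.Periods

open Complex Filter Topology Set CongruenceSubgroup UpperHalfPlane
open scoped MatrixGroups ModularForm Manifold

variable {N : ℕ} [NeZero N]

/-- A function on `ℍ` extended to `ℂ`. -/
noncomputable def extC (f : ℍ → ℂ) : ℂ → ℂ := f ∘ ofComplex

theorem extC_apply (f : ℍ → ℂ) {z : ℂ} (hz : z ∈ upperSet) : extC f z = f ⟨z, hz⟩ :=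
  congrArg f (ofComplex_apply_of_im_pos hz)

theorem extC_coe (f : ℍ → ℂ) (τ : ℍ) : extC f (τ : ℂ) = f τ := congrArg f (ofComplex_apply τ)

theorem vDecay_extC {f : ℍ → ℂ} {h : ℝ} (hh : 0 < h)
    (hper : Function.Periodic (f ∘ ofComplex) (h : ℂ)) (hhol : MDiff f) (h0 : IsZeroAtImInfty f) :
    VDecay (extC f) where
  diff := UpperHalfPlane.mdifferentiable_iff.mp hhol
  decay := by
    have hb : IsBoundedAtImInfty f := h0.isBoundedAtImInfty
    obtain ⟨C, hC⟩ := (h0.exp_decay_atImInfty hh hper hhol hb).bound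
    obtain ⟨A, hA⟩ := (atImInfty_mem _).mp hC
    refine ⟨2 * Real.pi / h, by positivity, C, max A 1, fun z hz => ?_⟩
    have hz' : z ∈ upperSet := lt_of_lt_of_le one_pos ((le_max_right _ _).trans hz)
    have h1 := hA ⟨z, hz'⟩ ((le_max_left _ _).trans hz)
    simp only [Set.mem_ofPred_eq, Real.norm_eq_abs, Real.abs_exp] at h1
    rw [extC_apply f hz']
    refine h1.trans_eq ?_
    congr 2
    show -2 * Real.pi * z.im / h = _
    ring

omit [NeZero N] in
theorem T_zpow_N_conj_mem (δ : SL(2, ℤ)) :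
    δ * ModularGroup.T ^ (N : ℤ) * δ⁻¹ ∈ Gamma0 N := by
  have h := ModularGroup_T_pow_mem_Gamma (N : ℤ) (N : ℤ) dvd_rfl
  rw [Int.natAbs_natCast] at h
  have h2 := (Gamma_normal N).conj_mem _ h δ
  rw [Gamma_mem] at h2
  exact Gamma0_mem.mpr h2.2.2.1

omit [NeZero N] in
theorem slash_eq_self {k : ℤ} (f : CuspForm (Gamma0 N) k) {γ : SL(2, ℤ)} (hγ : γ ∈ Gamma0 N) :
    (⇑f) ∣[k] γ = ⇑f :=
  SlashInvariantFormClass.slash_action_eq f _ (Subgroup.mem_map_of_mem _ hγ)

omit [NeZero N] in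
theorem slash_slash_T_zpow {k : ℤ} (f : ℍ → ℂ) (hf : ∀ γ ∈ Gamma0 N, f ∣[k] γ = f)
    (δ : SL(2, ℤ)) : (f ∣[k] δ) ∣[k] (ModularGroup.T ^ (N : ℤ)) = f ∣[k] δ := by
  rw [← SlashAction.slash_mul,
    show δ * ModularGroup.T ^ (N : ℤ) = δ * ModularGroup.T ^ (N : ℤ) * δ⁻¹ * δ by group,
    SlashAction.slash_mul, hf _ (T_zpow_N_conj_mem δ)]

omit [NeZero N] in
theorem periodic_of_slash_T_zpow {k : ℤ} {f : ℍ → ℂ}
    (hf : f ∣[k] (ModularGroup.T ^ (N : ℤ)) = f) {z : ℂ} (hz : z ∈ upperSet) :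
    extC f (z + ((N : ℝ) : ℂ)) = extC f z := by
  have hz' : z + ((N : ℝ) : ℂ) ∈ upperSet := by simpa [upperSet] using hz
  have h := congrFun hf ⟨z, hz⟩
  rw [ModularForm.SL_slash_apply] at h
  rw [extC_apply f hz, extC_apply f hz', ← h]
  have hd : denom (ModularGroup.T ^ (N : ℤ) : SL(2, ℤ)) (⟨z, hz⟩ : ℍ) = 1 := by
    rw [ModularGroup.denom_apply, ModularGroup.coe_T_zpow]
    simp
  rw [hd, one_zpow, mul_one, UpperHalfPlane.modular_T_zpow_smul]
  congr 1
  apply UpperHalfPlane.ext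
  simp [add_comm]

theorem vDecay_slash {k : ℤ} (f : CuspForm (Gamma0 N) k) (δ : SL(2, ℤ)) :
    VDecay (extC ((⇑f) ∣[k] δ)) := by
  have hN : (0 : ℝ) < N := by exact_mod_cast Nat.pos_of_ne_zero (NeZero.ne N)
  refine vDecay_extC hN (fun z => ?_) ?_ (CuspFormClass.zero_at_infty_slash f δ)
  · by_cases hz : 0 < z.im
    · exact periodic_of_slash_T_zpow
        (slash_slash_T_zpow _ (fun γ hγ => slash_eq_self f hγ) δ) hz
    · have : (z + ((N : ℝ) : ℂ)).im ≤ 0 := by simpa using not_lt.mp hz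
      simp only [Function.comp_apply]
      rw [ofComplex_apply_of_im_nonpos (not_lt.mp hz), ofComplex_apply_of_im_nonpos this]
  · exact (CuspFormClass.holo f).slash k _

theorem vDecay_cuspForm {k : ℤ} (f : CuspForm (Gamma0 N) k) : VDecay (extC ⇑f) := by
  simpa using vDecay_slash f 1

variable {n : ℕ}

theorem extC_slash_eq_slashC {k : ℤ} (hk : k = (n : ℤ) + 2) (f : ℍ → ℂ) (γ : GL (Fin 2) ℝ)
    (A : Matrix (Fin 2) (Fin 2) ℤ) (hA : 0 < A.det)
    (hγ : (γ : Matrix (Fin 2) (Fin 2) ℝ) = A.map (Int.castRingHom ℝ)) {z : ℂ} (hz : z ∈ upperSet) :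
    slashC n A (extC f) z = extC (f ∣[k] γ) z := by
  have hdet : ((γ.det : ℝˣ) : ℝ) = (A.det : ℝ) := by
    rw [Matrix.GeneralLinearGroup.val_det_apply, hγ]
    exact (RingHom.map_det (Int.castRingHom ℝ) A).symm
  have hA' : (0 : ℝ) < A.det := by exact_mod_cast hA
  have hpos : 0 < ((γ.det : ℝˣ) : ℝ) := hdet ▸ hA'
  have hsmul : ((γ • (⟨z, hz⟩ : ℍ) : ℍ) : ℂ) = mob A z := by
    rw [UpperHalfPlane.coe_smul_of_det_pos hpos]
    simp [UpperHalfPlane.num, UpperHalfPlane.denom, hγ, mob]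
  rw [extC_apply _ hz, ModularForm.slash_apply, hdet, abs_of_pos hA', slashC,
    show UpperHalfPlane.σ γ = .refl ℝ ℂ by rw [UpperHalfPlane.σ, if_pos hpos]]
  simp only [ContinuousAlgEquiv.refl_apply, UpperHalfPlane.denom, hγ, hk]
  rw [← extC_coe f, hsmul]
  simp only [Matrix.map_apply, eq_intCast, Complex.ofReal_intCast]
  rw [zpow_neg, show (n : ℤ) + 2 - 1 = ((n + 1 : ℕ) : ℤ) by push_cast; ring,
    show (n : ℤ) + 2 = ((n + 2 : ℕ) : ℤ) by push_cast; ring, zpow_natCast, zpow_natCast]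
  field_simp

theorem extC_slash_SL_eq_slashC {k : ℤ} (hk : k = (n : ℤ) + 2) (f : ℍ → ℂ) (γ : SL(2, ℤ))
    {z : ℂ} (hz : z ∈ upperSet) :
    slashC n (γ : Matrix (Fin 2) (Fin 2) ℤ) (extC f) z = extC (f ∣[k] γ) z :=
  extC_slash_eq_slashC hk f (γ : GL (Fin 2) ℝ) _ (by simp) rfl hz

omit [NeZero N] in
theorem isInvariantUnder_cuspForm {k : ℤ} (hk : k = (n : ℤ) + 2) (f : CuspForm (Gamma0 N) k)
    (γ : Gamma0 N) :
    IsInvariantUnder n (extC ⇑f) ((γ : SL(2, ℤ)) : Matrix (Fin 2) (Fin 2) ℤ) := fun z hz => by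
  rw [extC_slash_SL_eq_slashC hk (⇑f) (γ : SL(2, ℤ)) hz, slash_eq_self f γ.2]

theorem det_SL_pos (γ : SL(2, ℤ)) : 0 < (γ : Matrix (Fin 2) (Fin 2) ℤ).det := by simp

/-- The period cocycle as a linear map. -/
noncomputable def periodLin (N : ℕ) [NeZero N] (k : ℤ) (n : ℕ) :
    CuspForm (Gamma0 N) k →ₗ[ℂ] (Gamma0 N → Fin (n + 1) → ℂ) where
  toFun f γ := periodVec n (extC ⇑f) ((γ : SL(2, ℤ)) : Matrix (Fin 2) (Fin 2) ℤ)
  map_add' f g := by
    funext γ
    exact periodVec_add n (vDecay_cuspForm f) (vDecay_cuspForm g) _ (det_SL_pos _)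
  map_smul' c f := by
    funext γ
    refine (periodVec_congr n (fun z _ => ?_) _ (det_SL_pos _)).trans
      (periodVec_const_mul n c (extC ⇑f) _)
    simp [extC]

theorem periodLin_apply {k : ℤ} (f : CuspForm (Gamma0 N) k) (γ : Gamma0 N) :
    periodLin N k n f γ =
      periodVec n (extC ⇑f) ((γ : SL(2, ℤ)) : Matrix (Fin 2) (Fin 2) ℤ) := rfl

theorem periodLin_mul {k : ℤ} (hk : k = (n : ℤ) + 2) (f : CuspForm (Gamma0 N) k)
    (γ δ : Gamma0 N) :
    periodLin N k n f (γ * δ) = periodLin N k n f δ +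
      ((momMat n ((δ : SL(2, ℤ)) : Matrix (Fin 2) (Fin 2) ℤ)).map (Int.cast : ℤ → ℂ)).mulVec
        (periodLin N k n f γ) :=
  periodVec_mul n (vDecay_cuspForm f) (det_SL_pos _) (det_SL_pos _)
    (isInvariantUnder_cuspForm hk f γ) (isInvariantUnder_cuspForm hk f δ)

theorem periodLin_one {k : ℤ} (f : CuspForm (Gamma0 N) k) : periodLin N k n f 1 = 0 :=
  periodVec_one n (extC ⇑f)

/-! ### Injectivity -/

/-- The Eichler integral as a function on `ℍ`. -/
noncomputable def eichFun (n : ℕ) (f : ℍ → ℂ) (τ : ℍ) : ℂ := eichInt n (extC f) τ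

theorem eichFun_slash_apply (f : ℍ → ℂ) (δ : SL(2, ℤ)) (τ : ℍ) :
    (eichFun n f ∣[-(n : ℤ)] δ) τ =
      eichPair n τ (pullVec n (δ : Matrix (Fin 2) (Fin 2) ℤ) (extC f) τ) := by
  rw [eichPair_pullVec n _ (by simp) _ (show (τ : ℂ) ∈ upperSet from τ.im_pos),
    ModularForm.SL_slash_apply, neg_neg, zpow_natCast, ModularGroup.denom_apply,
    mul_comm, eichFun]
  congr 1
  congr 1
  rw [UpperHalfPlane.coe_specialLinearGroup_apply]
  simp [mob]

theorem eichPair_periodic_eq_const {v : Fin (n + 1) → ℂ} {h : ℝ} (hh : 0 < h)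
    (hper : ∀ z ∈ upperSet, eichPair n (z + h) v = eichPair n z v) (z : ℂ) :
    eichPair n z v = eichPair n Complex.I v := by
  set P : Polynomial ℂ :=
    ∑ i : Fin (n + 1), Polynomial.C ((n.choose i : ℂ) * (-1) ^ (i : ℕ) * v i) *
      Polynomial.X ^ (n - (i : ℕ))
  have hev : ∀ w : ℂ, P.eval w = eichPair n w v := by
    intro w
    simp only [P, Polynomial.eval_finsetSum, Polynomial.eval_mul, Polynomial.eval_C,
      Polynomial.eval_pow, Polynomial.eval_X, eichPair]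
    exact Finset.sum_congr rfl fun i _ => by ring
  have hiter : ∀ m : ℕ, eichPair n (Complex.I + m * h) v = eichPair n Complex.I v := by
    intro m
    induction m with
    | zero => simp
    | succ m ih =>
      rw [show Complex.I + ((m + 1 : ℕ) : ℂ) * (h : ℂ) = Complex.I + m * h + h by push_cast; ring,
        hper _ (by simp [upperSet]), ih]
  have heq : P = Polynomial.C (eichPair n Complex.I v) := by
    apply Polynomial.eq_of_infinite_eval_eq
    refine Set.Infinite.mono (s := Set.range fun m : ℕ => Complex.I + (m : ℂ) * (h : ℂ)) ?_ ?_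
    · rintro _ ⟨m, rfl⟩
      show P.eval _ = _
      rw [hev, hiter, Polynomial.eval_C]
    · refine Set.infinite_range_of_injective fun a b hab => ?_
      simpa [hh.ne'] using hab
  rw [← hev z, heq, Polynomial.eval_C]

theorem eichFun_slash_bounded {k : ℤ} (hk : k = (n : ℤ) + 2) (f : CuspForm (Gamma0 N) k)
    (hinv : ∀ γ ∈ Gamma0 N, eichFun n ⇑f ∣[-(n : ℤ)] γ = eichFun n ⇑f) (δ : SL(2, ℤ)) :
    IsBoundedAtImInfty (eichFun n ⇑f ∣[-(n : ℤ)] δ) := by
  have hg := vDecay_cuspForm f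
  have hgδ := vDecay_slash f δ
  obtain ⟨C, hC⟩ := exists_pullVec_eq_add n hg hgδ (δ : Matrix (Fin 2) (Fin 2) ℤ) (det_SL_pos δ)
    fun z hz => extC_slash_SL_eq_slashC hk (⇑f) δ hz
  have heq : ∀ z ∈ upperSet, extC (eichFun n ⇑f ∣[-(n : ℤ)] δ) z =
      eichInt n (extC (⇑f ∣[k] δ)) z + eichPair n z C := by
    intro z hz
    rw [extC_apply _ hz, eichFun_slash_apply]
    show eichPair n z _ = _
    rw [show ((⟨z, hz⟩ : ℍ) : ℂ) = z from rfl, hC z hz, eichPair_add, eichPair_momVec]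
  have hN : (0 : ℝ) < N := by exact_mod_cast Nat.pos_of_ne_zero (NeZero.ne N)
  have hconst : ∀ z, eichPair n z C = eichPair n Complex.I C := by
    refine fun z => eichPair_periodic_eq_const hN (fun w hw => ?_) z
    have hw' : w + ((N : ℝ) : ℂ) ∈ upperSet := by simpa [upperSet] using hw
    have h1 := periodic_of_slash_T_zpow (slash_slash_T_zpow _ hinv δ) hw
    rw [heq _ hw', heq _ hw, eichInt_periodic hgδ n (fun u hu => periodic_of_slash_T_zpow
      (slash_slash_T_zpow _ (fun γ hγ => slash_eq_self f hγ) δ) hu) hw] at h1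
    exact add_left_cancel h1
  obtain ⟨c, hc, K, A, hK⟩ := eichInt_exp_bound hgδ n
  refine UpperHalfPlane.isBoundedAtImInfty_iff.mpr
    ⟨max K 0 + ‖eichPair n Complex.I C‖, max A 0, fun τ hτ => ?_⟩
  have := heq (τ : ℂ) τ.im_pos
  rw [extC_coe, hconst] at this
  rw [this]
  refine (norm_add_le _ _).trans (add_le_add ((hK _ ((le_max_left _ _).trans hτ)).trans ?_) le_rfl)
  calc K * Real.exp (-c * (τ : ℂ).im) ≤ max K 0 * Real.exp (-c * (τ : ℂ).im) := by
        gcongr; exact le_max_left _ _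
    _ ≤ max K 0 * 1 := by
        gcongr
        rw [Real.exp_le_one_iff]
        nlinarith [τ.im_pos, show (τ : ℂ).im = τ.im from rfl]
    _ = max K 0 := mul_one _

theorem periodLin_injective {k : ℤ} (hk : k = (n : ℤ) + 2) :
    Function.Injective (periodLin N k n) := by
  rw [injective_iff_map_eq_zero]
  intro f hf
  have hg := vDecay_cuspForm f
  have hinv : ∀ γ ∈ Gamma0 N, eichFun n ⇑f ∣[-(n : ℤ)] γ = eichFun n ⇑f := by
    intro γ hγ
    funext τ
    rw [eichFun_slash_apply, pullVec_eq_add_periodVec n hg (det_SL_pos γ)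
      (isInvariantUnder_cuspForm hk f ⟨γ, hγ⟩) τ.im_pos,
      show periodVec n (extC ⇑f) (γ : Matrix (Fin 2) (Fin 2) ℤ) = 0 from congrFun hf ⟨γ, hγ⟩,
      add_zero, eichPair_momVec]
    rfl
  let E : ModularForm (Gamma0 N) (-(n : ℤ)) :=
    { toFun := eichFun n ⇑f
      slash_action_eq' := by
        rintro _ ⟨γ, hγ, rfl⟩
        exact hinv γ hγ
      holo' := by
        rw [UpperHalfPlane.mdifferentiable_iff]
        have hd : DifferentiableOn ℂ (eichInt n (extC ⇑f)) upperSet :=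
          DifferentiableOn.fun_sum fun i _ => ((differentiable_pow _).differentiableOn.const_mul
            _).mul fun z hz => (hasDerivAt_momInt hg i hz).differentiableAt.differentiableWithinAt
        exact hd.congr fun z hz => by
          simp [eichFun, ofComplex_apply_of_im_pos (show 0 < z.im from hz)]
      bdd_at_cusps' := fun {c} hc => by
        rw [Subgroup.IsArithmetic.isCusp_iff_isCusp_SL2Z] at hc
        rw [OnePoint.isBoundedAt_iff_forall_SL2Z hc]
        exact fun δ _ => eichFun_slash_bounded hk f hinv δ }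
  suffices hext : EqOn (extC ⇑f) 0 upperSet by
    ext τ
    simpa [extC_coe] using hext τ.im_pos
  rcases Nat.eq_zero_or_pos n with rfl | hn
  · obtain ⟨c, hc⟩ := ModularForm.eq_const_of_weight_zero (𝒢 := (Gamma0 N : Subgroup (GL (Fin 2) ℝ)))
      (E : ModularForm (Gamma0 N) 0)
    intro z hz
    have h1 : EqOn (momInt (extC ⇑f) 0) (fun _ => c) upperSet := fun w hw => by
      have h2 : eichFun 0 ⇑f ⟨w, hw⟩ = c := congrFun hc ⟨w, hw⟩
      simpa [eichFun, eichInt] using h2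
    have h2 : deriv (momInt (extC ⇑f) 0) z = 0 := by
      rw [(h1.eventuallyEq_of_mem (isOpen_upperSet.mem_nhds hz)).deriv_eq]
      exact deriv_const z c
    rw [(hasDerivAt_momInt hg 0 hz).deriv] at h2
    simpa using h2
  · have hE : E = 0 := ModularForm.isZero_of_neg_weight (by omega) E
    refine eqOn_zero_of_eichInt hg n fun z hz => ?_
    have h2 : eichFun n ⇑f ⟨z, hz⟩ = 0 := congrFun (congrArg DFunLike.coe hE) ⟨z, hz⟩
    simpa [eichFun] using h2

end FermatAgent.Periods
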