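import Mathlib
import Fermat.Prelude.Def_ModularCurve_PeriodMap

/-!
Hecke correspondences on a subgroup of `SL(2, ℤ)` given by finitely many integral matrices,
and the transfer operators they induce on `Additive Γ →+ A`.
-/

set_option autoImplicit false

namespace FermatAgent.Periods

open scoped MatrixGroups
open ModularCurve.Period

variable {Γ : Subgroup SL(2, ℤ)} {ι : Type} {A : Type*} [AddCommGroup A]

theorem matrix_mul_right_cancel {M N C : Matrix (Fin 2) (Fin 2) ℤ} (hC : C.det ≠ 0)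
    (h : M * C = N * C) : M = N := by
  have h' := congrArg (· * C.adjugate) h
  simp only [mul_assoc, Matrix.mul_adjugate, Matrix.mul_smul, mul_one] at h'
  exact smul_right_injective _ hC h'

theorem trace_eq_of_intertwine {C G H : Matrix (Fin 2) (Fin 2) ℤ} (hC : C.det ≠ 0)
    (h : C * G = H * C) : G.trace = H.trace := by
  have h1 : (C.adjugate * (C * G)).trace = C.det * G.trace := by
    rw [← mul_assoc, Matrix.adjugate_mul, Matrix.smul_mul, one_mul, Matrix.trace_smul, smul_eq_mul]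
  have h2 : (C.adjugate * (H * C)).trace = C.det * H.trace := by
    rw [Matrix.trace_mul_comm, mul_assoc, Matrix.mul_adjugate, Matrix.mul_smul, mul_one,
      Matrix.trace_smul, smul_eq_mul]
  rw [h, h2] at h1
  exact (mul_left_cancel₀ hC h1).symm

/-- A finite family of integral matrices on whose right cosets `Γ * rep i` the group `Γ` acts. -/
structure HeckeCorr (Γ : Subgroup SL(2, ℤ)) (ι : Type) where
  rep : ι → Matrix (Fin 2) (Fin 2) ℤ
  det_ne : ∀ i, (rep i).det ≠ 0
  exists_move : ∀ (γ : Γ) (i : ι), ∃ (j : ι) (δ : Γ),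
    rep i * ((γ : SL(2, ℤ)) : Matrix (Fin 2) (Fin 2) ℤ) =
      ((δ : SL(2, ℤ)) : Matrix (Fin 2) (Fin 2) ℤ) * rep j
  rep_sep : ∀ (δ : Γ) (i j : ι),
    rep i = ((δ : SL(2, ℤ)) : Matrix (Fin 2) (Fin 2) ℤ) * rep j → i = j

namespace HeckeCorr

variable (D : HeckeCorr Γ ι)

/-- The index `j` with `rep i * γ ∈ Γ * rep j`. -/
noncomputable def target (γ : Γ) (i : ι) : ι := (D.exists_move γ i).choose

/-- The element `δ` of `Γ` with `rep i * γ = δ * rep (target γ i)`. -/
noncomputable def move (γ : Γ) (i : ι) : Γ := (D.exists_move γ i).choose_spec.choose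

theorem move_spec (γ : Γ) (i : ι) :
    D.rep i * ((γ : SL(2, ℤ)) : Matrix (Fin 2) (Fin 2) ℤ) =
      ((D.move γ i : SL(2, ℤ)) : Matrix (Fin 2) (Fin 2) ℤ) * D.rep (D.target γ i) :=
  (D.exists_move γ i).choose_spec.choose_spec

theorem move_unique {γ : Γ} {i j : ι} {δ : Γ}
    (h : D.rep i * ((γ : SL(2, ℤ)) : Matrix (Fin 2) (Fin 2) ℤ) =
      ((δ : SL(2, ℤ)) : Matrix (Fin 2) (Fin 2) ℤ) * D.rep j) :
    D.target γ i = j ∧ D.move γ i = δ := by
  have h1 := (D.move_spec γ i).symm.trans h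
  have hj : D.target γ i = j := by
    apply D.rep_sep ((D.move γ i)⁻¹ * δ)
    rw [Subgroup.coe_mul, Matrix.SpecialLinearGroup.coe_mul, mul_assoc, ← h1, ← mul_assoc,
      ← Matrix.SpecialLinearGroup.coe_mul, ← Subgroup.coe_mul, inv_mul_cancel,
      OneMemClass.coe_one, Matrix.SpecialLinearGroup.coe_one, one_mul]
  refine ⟨hj, ?_⟩
  rw [hj] at h1
  exact Subtype.ext (Subtype.ext (matrix_mul_right_cancel (D.det_ne j) h1))

theorem move_one (i : ι) : D.target 1 i = i ∧ D.move 1 i = 1 := D.move_unique (by simp)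

theorem move_mul (γ δ : Γ) (i : ι) :
    D.target (γ * δ) i = D.target δ (D.target γ i) ∧
      D.move (γ * δ) i = D.move γ i * D.move δ (D.target γ i) := by
  apply D.move_unique
  rw [Subgroup.coe_mul, Matrix.SpecialLinearGroup.coe_mul, ← mul_assoc, D.move_spec γ i,
    mul_assoc, D.move_spec δ _, ← mul_assoc, ← Matrix.SpecialLinearGroup.coe_mul,
    ← Subgroup.coe_mul]

/-- The permutation of the indices by `target γ`. -/
noncomputable def targetEquiv (γ : Γ) : Equiv.Perm ι where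
  toFun := D.target γ
  invFun := D.target γ⁻¹
  left_inv i := by rw [← (D.move_mul γ γ⁻¹ i).1, mul_inv_cancel, (D.move_one i).1]
  right_inv i := by rw [← (D.move_mul γ⁻¹ γ i).1, inv_mul_cancel, (D.move_one i).1]

@[simp] theorem targetEquiv_apply (γ : Γ) (i : ι) : D.targetEquiv γ i = D.target γ i := rfl

theorem move_pow (γ : Γ) (m : ℕ) (i : ι) :
    D.target (γ ^ m) i = (D.targetEquiv γ ^ m) i ∧
      ∀ φ : Additive Γ →+ A, φ (Additive.ofMul (D.move (γ ^ m) i)) =
        ∑ l ∈ Finset.range m, φ (Additive.ofMul (D.move γ ((D.targetEquiv γ ^ l) i))) := by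
  induction m with
  | zero => simp [(D.move_one i).1, (D.move_one i).2]
  | succ m ih =>
    obtain ⟨h1, h2⟩ := D.move_mul (γ ^ m) γ i
    refine ⟨?_, fun φ => ?_⟩
    · rw [pow_succ, h1, ih.1, pow_succ']
      rfl
    · rw [pow_succ, h2, ofMul_mul, map_add, ih.2, Finset.sum_range_succ, ih.1]

section Transfer

variable [Fintype ι] (R : Type*) [Semiring R] [Module R A]

/-- The transfer operator of the correspondence on additive characters. -/
noncomputable def transfer : (Additive Γ →+ A) →ₗ[R] (Additive Γ →+ A) where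
  toFun φ :=
    { toFun := fun γ => ∑ i, φ (Additive.ofMul (D.move (Additive.toMul γ) i))
      map_zero' := by simp [fun i => (D.move_one i).2]
      map_add' := fun γ δ => by
        simp only [toMul_add, (D.move_mul _ _ _).2, ofMul_mul, map_add, Finset.sum_add_distrib]
        exact congrArg _ (Equiv.sum_comp (D.targetEquiv (Additive.toMul γ))
          fun i => φ (Additive.ofMul (D.move (Additive.toMul δ) i))) }
  map_add' φ ψ := by
    ext γ
    simp [Finset.sum_add_distrib]
  map_smul' c φ := by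
    ext γ
    simp [Finset.smul_sum]

theorem transfer_apply (φ : Additive Γ →+ A) (γ : Γ) :
    D.transfer R φ (Additive.ofMul γ) = ∑ i, φ (Additive.ofMul (D.move γ i)) := rfl

theorem transfer_apply_of_eq (φ : Additive Γ →+ A) (γ : Γ) (σ : ι → ι) (δ : ι → Γ)
    (h : ∀ i, D.rep i * ((γ : SL(2, ℤ)) : Matrix (Fin 2) (Fin 2) ℤ) =
      ((δ i : SL(2, ℤ)) : Matrix (Fin 2) (Fin 2) ℤ) * D.rep (σ i)) :
    D.transfer R φ (Additive.ofMul γ) = ∑ i, φ (Additive.ofMul (δ i)) := by
  rw [transfer_apply]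
  exact Finset.sum_congr rfl fun i _ => by rw [(D.move_unique (h i)).2]

theorem transfer_map {B : Type*} [AddCommGroup B] [Module R B] (u : A →+ B)
    (φ : Additive Γ →+ A) : D.transfer R (u.comp φ) = u.comp (D.transfer R φ) := by
  refine AddMonoidHom.ext fun γ => ?_
  exact (map_sum u _ _).symm

end Transfer

end HeckeCorr

theorem trace_pow_sq_eq_four {G : Matrix (Fin 2) (Fin 2) ℤ} (hdet : G.det = 1)
    (ht : G.trace ^ 2 = 4) (m : ℕ) : (G ^ m).trace ^ 2 = 4 := by
  obtain ⟨ε, hε, hε2⟩ : ∃ ε : ℤ, G.trace = 2 * ε ∧ ε ^ 2 = 1 := by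
    rcases sq_eq_sq_iff_eq_or_eq_neg.mp (ht.trans (by norm_num : (4 : ℤ) = 2 ^ 2)) with h | h
    · exact ⟨1, by rw [h]; ring, by ring⟩
    · exact ⟨-1, by rw [h]; ring, by ring⟩
  have hch : G * G = G.trace • G - 1 := by
    rw [Matrix.det_fin_two] at hdet
    ext i j
    rw [Matrix.sub_apply, Matrix.smul_apply, smul_eq_mul, Matrix.mul_apply, Fin.sum_univ_two,
      Matrix.trace_fin_two]
    fin_cases i <;> fin_cases j <;> simp <;>
      first | linear_combination -hdet | linear_combination (0 : ℤ) * hdet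
  have key : ∀ m : ℕ, (G ^ m).trace = 2 * ε ^ m ∧ (G ^ (m + 1)).trace = 2 * ε ^ (m + 1) := by
    intro m
    induction m with
    | zero => simp [hε]
    | succ m ih =>
      refine ⟨ih.2, ?_⟩
      have : G ^ (m + 1 + 1) = G.trace • G ^ (m + 1) - G ^ m := by
        rw [pow_succ, pow_succ, mul_assoc, hch, mul_sub, mul_smul_comm, mul_one]
      rw [this, Matrix.trace_sub, Matrix.trace_smul, smul_eq_mul, ih.1, ih.2, hε]
      linear_combination (2 * ε ^ m) * hε2
  rw [(key m).1, mul_pow, ← pow_mul, mul_comm m 2, pow_mul, hε2, one_pow]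
  norm_num

theorem sum_eq_zero_of_cycle_sums {ι : Type*} [Fintype ι] (σ : Equiv.Perm ι) {M : Type*}
    [AddCommMonoid M] (f : ι → M)
    (h : ∀ i m, (σ ^ m) i = i → ∑ l ∈ Finset.range m, f ((σ ^ l) i) = 0) : ∑ i, f i = 0 := by
  classical
  refine Finset.sum_cancels_of_partition_cancels (Equiv.Perm.SameCycle.setoid σ) fun i _ => ?_
  have hper : i ∈ Function.periodicPts σ := σ.injective.mem_periodicPts i
  set m := Function.minimalPeriod σ i with hm
  have hm0 : 0 < m := Function.minimalPeriod_pos_of_mem_periodicPts hper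
  have hiter : ∀ l, (σ ^ l) i = σ^[l] i := fun l => by rw [Equiv.Perm.coe_pow]
  have hset : (Finset.univ.filter fun y => (Equiv.Perm.SameCycle.setoid σ).r y i) =
      (Finset.range m).image fun l => σ^[l] i := by
    ext y
    simp only [Finset.mem_filter, Finset.mem_univ, true_and, Finset.mem_image, Finset.mem_range]
    constructor
    · intro hy
      obtain ⟨l, hl⟩ := (Equiv.Perm.SameCycle.symm hy).exists_nat_pow_eq
      exact ⟨l % m, Nat.mod_lt _ hm0, by rw [Function.iterate_mod_minimalPeriod_eq, ← hiter, hl]⟩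
    · rintro ⟨l, -, rfl⟩
      exact Equiv.Perm.SameCycle.symm ⟨l, by rw [zpow_natCast, hiter]⟩
  rw [hset, Finset.sum_image]
  · rw [← h i m (by rw [hiter]; exact Function.iterate_minimalPeriod)]
    exact Finset.sum_congr rfl fun l _ => by rw [hiter]
  · intro a ha b hb hab
    exact Function.iterate_injOn_Iio_minimalPeriod (by simpa using ha) (by simpa using hb) hab

namespace HeckeCorr

variable (D : HeckeCorr Γ ι) [Fintype ι] (R : Type*) [Semiring R] [Module R A]

theorem transfer_mem_parabolicHoms {φ : Additive Γ →+ A} (hφ : φ ∈ parabolicHoms R Γ A) :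
    D.transfer R φ ∈ parabolicHoms R Γ A := by
  intro γ hγ
  rw [transfer_apply]
  refine sum_eq_zero_of_cycle_sums (D.targetEquiv γ) _ fun i m hm => ?_
  rw [← (D.move_pow γ m i).2 φ]
  refine hφ _ ?_
  have hs := D.move_spec (γ ^ m) i
  rw [(D.move_pow (A := A) γ m i).1, hm] at hs
  rw [← trace_eq_of_intertwine (D.det_ne i) hs, SubmonoidClass.coe_pow,
    Matrix.SpecialLinearGroup.coe_pow]
  exact trace_pow_sq_eq_four (Matrix.SpecialLinearGroup.det_coe _) hγ m

/-- The transfer commutes with an automorphism compatible with the correspondence up to a change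
of representatives. -/
theorem transfer_comp_of_compat (θ : Γ →* Γ)
    (Θ : Matrix (Fin 2) (Fin 2) ℤ → Matrix (Fin 2) (Fin 2) ℤ)
    (hmul : ∀ M N, Θ (M * N) = Θ M * Θ N)
    (hθ : ∀ γ : Γ, Θ ((γ : SL(2, ℤ)) : Matrix (Fin 2) (Fin 2) ℤ) =
      ((θ γ : SL(2, ℤ)) : Matrix (Fin 2) (Fin 2) ℤ))
    (τ : Equiv.Perm ι) (u : ι → Γ)
    (hrep : ∀ i, Θ (D.rep i) = ((u i : SL(2, ℤ)) : Matrix (Fin 2) (Fin 2) ℤ) * D.rep (τ i))
    (φ : Additive Γ →+ A) :
    D.transfer R (φ.comp (MonoidHom.toAdditive θ)) =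
      (D.transfer R φ).comp (MonoidHom.toAdditive θ) := by
  refine AddMonoidHom.ext fun x => ?_
  obtain ⟨γ, rfl⟩ : ∃ γ, Additive.ofMul γ = x := ⟨Additive.toMul x, rfl⟩
  have key : ∀ i, D.move (θ γ) (τ i) = (u i)⁻¹ * θ (D.move γ i) * u (D.target γ i) := by
    intro i
    refine (D.move_unique (j := τ (D.target γ i)) ?_).2
    have e : ((u i : SL(2, ℤ)) : Matrix (Fin 2) (Fin 2) ℤ) * (D.rep (τ i) *
        ((θ γ : SL(2, ℤ)) : Matrix (Fin 2) (Fin 2) ℤ)) =
        ((θ (D.move γ i) : SL(2, ℤ)) : Matrix (Fin 2) (Fin 2) ℤ) *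
          (((u (D.target γ i) : SL(2, ℤ)) : Matrix (Fin 2) (Fin 2) ℤ) *
            D.rep (τ (D.target γ i))) := by
      rw [← mul_assoc, ← hrep, ← hrep, ← hθ, ← hθ, ← hmul, ← hmul, D.move_spec]
    have hu : ∀ M : Matrix (Fin 2) (Fin 2) ℤ,
        (((u i)⁻¹ : Γ) : SL(2, ℤ)).1 * ((u i : SL(2, ℤ)).1 * M) = M := fun M => by
      rw [← mul_assoc, ← Matrix.SpecialLinearGroup.coe_mul, ← Subgroup.coe_mul, inv_mul_cancel,
        OneMemClass.coe_one, Matrix.SpecialLinearGroup.coe_one, one_mul]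
    rw [← hu (D.rep (τ i) * _), e]
    simp only [Subgroup.coe_mul, Matrix.SpecialLinearGroup.coe_mul, mul_assoc]
  show ∑ i, φ (Additive.ofMul (θ (D.move γ i))) = ∑ i, φ (Additive.ofMul (D.move (θ γ) i))
  rw [← Equiv.sum_comp τ fun i => φ (Additive.ofMul (D.move (θ γ) i))]
  simp only [key, ofMul_mul, ofMul_inv, map_add, map_neg, Finset.sum_add_distrib,
    Finset.sum_neg_distrib]
  rw [show (∑ i, φ (Additive.ofMul (u (D.target γ i)))) = ∑ i, φ (Additive.ofMul (u i)) from
    Equiv.sum_comp (D.targetEquiv γ) fun i => φ (Additive.ofMul (u i))]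
  abel

end HeckeCorr

end FermatAgent.Periods
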