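import Mathlib
import Fermat.Agent.Periods.TransferHom
import Fermat.Prelude.Def_ModularCurve_PeriodHomPair
import Fermat.Prelude.Def_ModularForm_HeckeOperator
import Fermat.Prelude.Sol.S_ModularForm_heckeU_slash_eq_self_of_mem_Gamma0

/-!
The correspondences `T_p` (`p ∤ N`) and `U_q` (`q ∣ N`) on `Γ₀(N)` and the induced operators on
additive characters with arbitrary coefficients; compatibility with `charInvolution`.
-/

set_option autoImplicit false

namespace FermatAgent.Periods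

open scoped MatrixGroups
open CongruenceSubgroup ModularCurve.Period
open P2MW.S_ModularForm_heckeU_slash_eq_self_of_mem_Gamma0.ModularForm.HeckeSlashInvariance

/-- The representative `!![1, j; 0, p]` of `T_p`. -/
def upperRep (p : ℕ) (j : ℤ) : Matrix (Fin 2) (Fin 2) ℤ := !![1, j; 0, (p : ℤ)]

/-- The representative `diag(p, 1)` of `T_p`. -/
def diagRep (p : ℕ) : Matrix (Fin 2) (Fin 2) ℤ := !![(p : ℤ), 0; 0, 1]

/-- Representatives of `T_p`: `none` is `diag(p, 1)` and `some j` is `!![1, j; 0, p]`. -/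
def tRep (p : ℕ) : Option (ZMod p) → Matrix (Fin 2) (Fin 2) ℤ
  | none => diagRep p
  | some x => upperRep p (x.val : ℤ)

theorem det_upperRep (p : ℕ) (j : ℤ) : (upperRep p j).det = p := by simp [upperRep]

theorem det_diagRep (p : ℕ) : (diagRep p).det = p := by simp [diagRep]

theorem det_tRep (p : ℕ) (x : Option (ZMod p)) : (tRep p x).det = p := by
  cases x <;> simp [tRep, det_upperRep, det_diagRep]

theorem matrix_eq_of_mapGL_eq {M M' : Matrix (Fin 2) (Fin 2) ℤ} {a b : GL (Fin 2) ℝ}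
    {g g' : SL(2, ℤ)} (ha : (a : Matrix (Fin 2) (Fin 2) ℝ) = M.map (Int.castRingHom ℝ))
    (hb : (b : Matrix (Fin 2) (Fin 2) ℝ) = M'.map (Int.castRingHom ℝ))
    (h : a * Matrix.SpecialLinearGroup.mapGL ℝ g = Matrix.SpecialLinearGroup.mapGL ℝ g' * b) :
    M * (g : Matrix (Fin 2) (Fin 2) ℤ) = (g' : Matrix (Fin 2) (Fin 2) ℤ) * M' := by
  apply Matrix.map_injective (f := Int.castRingHom ℝ) Int.cast_injective
  show (M * (g : Matrix (Fin 2) (Fin 2) ℤ)).map (Int.castRingHom ℝ) =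
    ((g' : Matrix (Fin 2) (Fin 2) ℤ) * M').map (Int.castRingHom ℝ)
  rw [Matrix.map_mul, Matrix.map_mul, ← ha, ← hb]
  exact congrArg Units.val h

theorem heckeMatrix_eq_map {p : ℕ} (hp : p ≠ 0) (j : ℕ) :
    ((ModularForm.heckeMatrix p j : GL (Fin 2) ℝ) : Matrix (Fin 2) (Fin 2) ℝ) =
      (upperRep p (j : ℤ)).map (Int.castRingHom ℝ) := by
  rw [ModularForm.val_heckeMatrix hp]
  ext a b
  fin_cases a <;> fin_cases b <;> simp [upperRep]

theorem heckeDiagMatrix_eq_map {p : ℕ} (hp : p ≠ 0) :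
    ((ModularForm.heckeDiagMatrix p : GL (Fin 2) ℝ) : Matrix (Fin 2) (Fin 2) ℝ) =
      (diagRep p).map (Int.castRingHom ℝ) := by
  rw [ModularForm.val_heckeDiagMatrix hp]
  ext a b
  fin_cases a <;> fin_cases b <;> simp [diagRep]

theorem upperRep_sep {p : ℕ} [NeZero p] (δ : SL(2, ℤ)) {x y : ZMod p}
    (h : upperRep p (x.val : ℤ) = (δ : Matrix (Fin 2) (Fin 2) ℤ) * upperRep p (y.val : ℤ)) :
    x = y := by
  have h00 := congrFun (congrFun h 0) 0
  have h01 := congrFun (congrFun h 0) 1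
  simp [upperRep, Matrix.mul_apply, Fin.sum_univ_two] at h00 h01
  rw [← h00, one_mul] at h01
  have := congrArg (Int.cast : ℤ → ZMod p) h01
  simpa using this

theorem tRep_sep {p : ℕ} (hp : p.Prime) (δ : SL(2, ℤ)) (i j : Option (ZMod p))
    (h : tRep p i = (δ : Matrix (Fin 2) (Fin 2) ℤ) * tRep p j) : i = j := by
  have : NeZero p := ⟨hp.ne_zero⟩
  have hp1 : ¬ (p : ℤ) ∣ 1 := fun hd => hp.ne_one (Nat.dvd_one.mp (by exact_mod_cast hd))
  cases i with
  | none =>
    cases j with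
    | none => rfl
    | some y =>
      exfalso
      have h10 := congrFun (congrFun h 1) 0
      have h11 := congrFun (congrFun h 1) 1
      simp [tRep, diagRep, upperRep, Matrix.mul_apply, Fin.sum_univ_two] at h10 h11
      exact hp1 ⟨(δ : Matrix (Fin 2) (Fin 2) ℤ) 1 1, by
        simp only [← h10, zero_mul, zero_add] at h11
        linear_combination h11⟩
  | some x =>
    cases j with
    | none =>
      exfalso
      have h00 := congrFun (congrFun h 0) 0
      simp [tRep, diagRep, upperRep, Matrix.mul_apply, Fin.sum_univ_two] at h00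
      exact hp1 ⟨(δ : Matrix (Fin 2) (Fin 2) ℤ) 0 0, by rw [mul_comm]; exact h00⟩
    | some y => exact congrArg some (upperRep_sep δ h)

/-- The correspondence `T_p` on `Γ₀(N)`, `p` a prime not dividing `N`. -/
def tCorr (N : ℕ) {p : ℕ} (hp : p.Prime) (hpN : ¬ p ∣ N) :
    HeckeCorr (Gamma0 N) (Option (ZMod p)) where
  rep := tRep p
  det_ne i := by rw [det_tRep]; exact_mod_cast hp.ne_zero
  rep_sep δ i j h := tRep_sep hp (δ : SL(2, ℤ)) i j h
  exists_move γ x := by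
    have : Fact p.Prime := ⟨hp⟩
    have hg : (N : ℤ) ∣ (γ : SL(2, ℤ)) 1 0 :=
      (ZMod.intCast_zmod_eq_zero_iff_dvd _ _).mp (Gamma0_mem.mp γ.2)
    obtain ⟨g', hg', hmul⟩ := heckeRep_mul hpN (γ : SL(2, ℤ)) hg (show OnePoint (ZMod p) from x)
    refine ⟨show OnePoint (ZMod p) from redMatrix p (γ : SL(2, ℤ)) • (show OnePoint (ZMod p) from x),
      ⟨g', Gamma0_mem.mpr ((ZMod.intCast_zmod_eq_zero_iff_dvd _ _).mpr hg')⟩, ?_⟩
    have hmap : ∀ y : Option (ZMod p), ((heckeRep p y : GL (Fin 2) ℝ) : Matrix (Fin 2) (Fin 2) ℝ) =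
        (tRep p y).map (Int.castRingHom ℝ) := by
      intro y
      cases y with
      | none => exact heckeDiagMatrix_eq_map hp.ne_zero
      | some y => exact heckeMatrix_eq_map hp.ne_zero y.val
    exact matrix_eq_of_mapGL_eq (hmap x) (hmap _) hmul

/-- The correspondence `U_q` on `Γ₀(N)`, `q ∣ N`. -/
def uCorr (N : ℕ) {q : ℕ} [NeZero q] (hqN : q ∣ N) : HeckeCorr (Gamma0 N) (ZMod q) where
  rep x := upperRep q (x.val : ℤ)
  det_ne i := by rw [det_upperRep]; exact_mod_cast NeZero.ne q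
  rep_sep δ i j h := upperRep_sep (δ : SL(2, ℤ)) h
  exists_move γ x := by
    have hg : (N : ℤ) ∣ (γ : SL(2, ℤ)) 1 0 :=
      (ZMod.intCast_zmod_eq_zero_iff_dvd _ _).mp (Gamma0_mem.mp γ.2)
    obtain ⟨g', hg', hmul⟩ :=
      heckeMatrix_mul_of_dvd (γ : SL(2, ℤ)) ((Int.natCast_dvd_natCast.mpr hqN).trans hg) x
    refine ⟨_, ⟨g', Gamma0_mem.mpr ((ZMod.intCast_zmod_eq_zero_iff_dvd _ _).mpr ?_)⟩,
      matrix_eq_of_mapGL_eq (heckeMatrix_eq_map (NeZero.ne q) _)
        (heckeMatrix_eq_map (NeZero.ne q) _) hmul⟩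
    rw [hg']
    exact dvd_mul_of_dvd_right hg _

@[simp] theorem tCorr_rep (N : ℕ) {p : ℕ} (hp : p.Prime) (hpN : ¬ p ∣ N) :
    (tCorr N hp hpN).rep = tRep p := rfl

@[simp] theorem uCorr_rep (N : ℕ) {q : ℕ} [NeZero q] (hqN : q ∣ N) (x : ZMod q) :
    (uCorr N hqN).rep x = upperRep q (x.val : ℤ) := rfl

variable (R : Type*) [Semiring R] {A : Type*} [AddCommGroup A] [Module R A]

/-- `T_p` on additive characters of `Γ₀(N)` with values in any `R`-module. -/
noncomputable def heckeHomT (N : ℕ) {p : ℕ} (hp : p.Prime) (hpN : ¬ p ∣ N) :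
    (Additive (Gamma0 N) →+ A) →ₗ[R] (Additive (Gamma0 N) →+ A) :=
  have : NeZero p := ⟨hp.ne_zero⟩
  (tCorr N hp hpN).transfer R

/-- `U_q` on additive characters of `Γ₀(N)` with values in any `R`-module. -/
noncomputable def heckeHomU (N : ℕ) {q : ℕ} [NeZero q] (hqN : q ∣ N) :
    (Additive (Gamma0 N) →+ A) →ₗ[R] (Additive (Gamma0 N) →+ A) :=
  (uCorr N hqN).transfer R

variable {R}

theorem heckeHomT_mem_parabolicHoms (N : ℕ) {p : ℕ} (hp : p.Prime) (hpN : ¬ p ∣ N)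
    {φ : Additive (Gamma0 N) →+ A} (hφ : φ ∈ parabolicHoms R (Gamma0 N) A) :
    heckeHomT R N hp hpN φ ∈ parabolicHoms R (Gamma0 N) A :=
  have : NeZero p := ⟨hp.ne_zero⟩
  (tCorr N hp hpN).transfer_mem_parabolicHoms R hφ

theorem heckeHomU_mem_parabolicHoms (N : ℕ) {q : ℕ} [NeZero q] (hqN : q ∣ N)
    {φ : Additive (Gamma0 N) →+ A} (hφ : φ ∈ parabolicHoms R (Gamma0 N) A) :
    heckeHomU R N hqN φ ∈ parabolicHoms R (Gamma0 N) A :=
  (uCorr N hqN).transfer_mem_parabolicHoms R hφ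

theorem heckeHomT_map {B : Type*} [AddCommGroup B] [Module R B] (N : ℕ) {p : ℕ} (hp : p.Prime)
    (hpN : ¬ p ∣ N) (u : A →+ B) (φ : Additive (Gamma0 N) →+ A) :
    heckeHomT R N hp hpN (u.comp φ) = u.comp (heckeHomT R N hp hpN φ) :=
  have : NeZero p := ⟨hp.ne_zero⟩
  (tCorr N hp hpN).transfer_map R u φ

theorem heckeHomU_map {B : Type*} [AddCommGroup B] [Module R B] (N : ℕ) {q : ℕ} [NeZero q]
    (hqN : q ∣ N) (u : A →+ B) (φ : Additive (Gamma0 N) →+ A) :
    heckeHomU R N hqN (u.comp φ) = u.comp (heckeHomU R N hqN φ) :=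
  (uCorr N hqN).transfer_map R u φ

/-- `!![1, e; 0, 1]` as an element of `Γ₀(N)`. -/
def shiftGamma0 (N : ℕ) (e : ℤ) : Gamma0 N :=
  ⟨⟨!![1, e; 0, 1], by simp⟩, Gamma0_mem.mpr (by simp)⟩

theorem jConjMat_upperRep (N : ℕ) {q : ℕ} [NeZero q] (x : ZMod q) :
    ∃ u : Gamma0 N, jConjMat (upperRep q (x.val : ℤ)) =
      ((u : SL(2, ℤ)) : Matrix (Fin 2) (Fin 2) ℤ) * upperRep q ((-x).val : ℤ) := by
  obtain ⟨e, he⟩ : (q : ℤ) ∣ -(x.val : ℤ) - ((-x).val : ℤ) := by
    rw [← ZMod.intCast_zmod_eq_zero_iff_dvd]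
    simp
  refine ⟨shiftGamma0 N e, ?_⟩
  ext a b
  fin_cases a <;> fin_cases b <;>
    simp [jConjMat, upperRep, shiftGamma0, Matrix.mul_apply, Fin.sum_univ_two, -ZMod.natCast_val]
  linear_combination he

theorem heckeHomU_charInvolution (N : ℕ) {q : ℕ} [NeZero q] (hqN : q ∣ N)
    (φ : Additive (Gamma0 N) →+ A) :
    heckeHomU R N hqN (charInvolution N R A φ) = charInvolution N R A (heckeHomU R N hqN φ) := by
  choose u hu using fun x : ZMod q => jConjMat_upperRep N x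
  exact (uCorr N hqN).transfer_comp_of_compat R (jConjGamma0 N) jConjMat jConjMat_mul
    (fun γ => rfl) (Equiv.neg _) u hu φ

theorem heckeHomT_charInvolution (N : ℕ) {p : ℕ} (hp : p.Prime) (hpN : ¬ p ∣ N)
    (φ : Additive (Gamma0 N) →+ A) :
    heckeHomT R N hp hpN (charInvolution N R A φ) =
      charInvolution N R A (heckeHomT R N hp hpN φ) := by
  have : NeZero p := ⟨hp.ne_zero⟩
  have hrep : ∀ x : Option (ZMod p), ∃ u : Gamma0 N, jConjMat (tRep p x) =
      ((u : SL(2, ℤ)) : Matrix (Fin 2) (Fin 2) ℤ) * tRep p (x.map Neg.neg) := by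
    intro x
    cases x with
    | none =>
      refine ⟨1, ?_⟩
      ext a b
      fin_cases a <;> fin_cases b <;> simp [jConjMat, tRep, diagRep]
    | some x => exact jConjMat_upperRep N x
  choose u hu using hrep
  exact (tCorr N hp hpN).transfer_comp_of_compat R (jConjGamma0 N) jConjMat jConjMat_mul
    (fun γ => rfl) (Equiv.optionCongr (Equiv.neg _)) u hu φ

end FermatAgent.Periods
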