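import Mathlib
import Fermat.Agent.Periods.CuspPeriods
import Fermat.Agent.Periods.HeckeHom
import Fermat.Prelude.Def_ModularForm_HeckeOperatorForms

/-!
Periods of `T_p f` and `U_q f` in terms of periods of `f`.
-/

set_option autoImplicit false

namespace FermatAgent.Periods

open CongruenceSubgroup UpperHalfPlane
open scoped MatrixGroups ModularForm
open P2MW.S_ModularForm_heckeU_slash_eq_self_of_mem_Gamma0.ModularForm.HeckeSlashInvariance

variable {N : ℕ} [NeZero N] {n : ℕ} {k : ℤ}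

theorem periodLin_of_corr (hk : k = (n : ℤ) + 2) {ι : Type} [Fintype ι]
    (D : HeckeCorr (Gamma0 N) ι) (hdet : ∀ i, 0 < (D.rep i).det) (hup : ∀ i, D.rep i 1 0 = 0)
    (γs : ι → GL (Fin 2) ℝ)
    (hγs : ∀ i, (γs i : Matrix (Fin 2) (Fin 2) ℝ) = (D.rep i).map (Int.castRingHom ℝ))
    (f g : CuspForm (Gamma0 N) k) (hg : (⇑g : ℍ → ℂ) = ∑ i, (⇑f) ∣[k] γs i) (γ : Gamma0 N) :
    periodLin N k n g γ = ∑ i, ((momMat n (D.rep (D.target γ i))).map (Int.cast : ℤ → ℂ)).mulVec
      (periodLin N k n f (D.move γ i)) := by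
  have hT : ∀ z ∈ upperSet, extC (⇑g) z = ∑ i, slashC n (D.rep i) (extC ⇑f) z := by
    intro z hz
    rw [extC_apply _ hz, hg, Finset.sum_apply]
    refine Finset.sum_congr rfl fun i _ => ?_
    rw [extC_slash_eq_slashC hk (⇑f) (γs i) (D.rep i) (hdet i) (hγs i) hz, extC_apply _ hz]
  have h := periodVec_hecke n (g := extC ⇑f) (gT := extC ⇑g) (vDecay_cuspForm f) (vDecay_cuspForm g)
    D.rep hdet hup hT (γ := ((γ : SL(2, ℤ)) : Matrix (Fin 2) (Fin 2) ℤ)) (det_SL_pos _)
    (D.targetEquiv γ) (fun i => ((D.move γ i : SL(2, ℤ)) : Matrix (Fin 2) (Fin 2) ℤ))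
    (fun i => det_SL_pos _) (fun i => isInvariantUnder_cuspForm hk f (D.move γ i)) (D.move_spec γ)
  simp only [periodLin_apply]
  exact h

theorem det_tRep_pos {p : ℕ} (hp : p ≠ 0) (x : Option (ZMod p)) : 0 < (tRep p x).det := by
  rw [det_tRep]
  exact_mod_cast Nat.pos_of_ne_zero hp

theorem tRep_one_zero (p : ℕ) (x : Option (ZMod p)) : tRep p x 1 0 = 0 := by
  cases x <;> simp [tRep, diagRep, upperRep]

theorem periodLin_heckeTLin (hk : k = (n : ℤ) + 2) {p : ℕ} [NeZero p] (hp : p.Prime)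
    (hpN : ¬ p ∣ N) (f : CuspForm (Gamma0 N) k) (γ : Gamma0 N) :
    periodLin N k n (CuspForm.heckeTLin k hp hpN f) γ =
      ∑ i, ((momMat n (tRep p ((tCorr N hp hpN).target γ i))).map (Int.cast : ℤ → ℂ)).mulVec
        (periodLin N k n f ((tCorr N hp hpN).move γ i)) := by
  refine periodLin_of_corr hk (tCorr N hp hpN) (det_tRep_pos hp.ne_zero) (tRep_one_zero p)
    (fun x => heckeRep p x) ?_ f _ ?_ γ
  · intro x
    cases x with
    | none => exact heckeDiagMatrix_eq_map hp.ne_zero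
    | some x => exact heckeMatrix_eq_map hp.ne_zero x.val
  · rw [CuspForm.coe_heckeTLin_apply, ModularForm.heckeT_eq_heckeU_add, heckeU_eq_sum_zmod,
      add_comm]
    exact (Fintype.sum_option fun x => (⇑f) ∣[k] heckeRep p x).symm

theorem periodLin_heckeULin (hk : k = (n : ℤ) + 2) {q : ℕ} [NeZero q] (hqN : q ∣ N)
    (f : CuspForm (Gamma0 N) k) (γ : Gamma0 N) :
    periodLin N k n (CuspForm.heckeULin k hqN f) γ =
      ∑ i, ((momMat n ((uCorr N hqN).rep ((uCorr N hqN).target γ i))).map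
        (Int.cast : ℤ → ℂ)).mulVec (periodLin N k n f ((uCorr N hqN).move γ i)) := by
  refine periodLin_of_corr hk (uCorr N hqN) ?_ ?_ (fun x => ModularForm.heckeMatrix q x.val) ?_ f _
    ?_ γ
  · intro i
    rw [uCorr_rep, det_upperRep]
    exact_mod_cast Nat.pos_of_ne_zero (NeZero.ne q)
  · intro i
    simp [upperRep]
  · exact fun x => heckeMatrix_eq_map (NeZero.ne q) x.val
  · rw [CuspForm.coe_heckeULin_apply, heckeU_eq_sum_zmod]

end FermatAgent.Periods
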