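import Mathlib
import Fermat.Agent.Periods.HeckePeriods
import Fermat.Prelude.Def_ModularCurve_PeriodMapBundled
import Fermat.Prelude.Def_ModularCurve_PeriodHomPair

/-!
Weight 2: the equivariant primitive, linearity, injectivity and parabolicity of `periodMap`, and its
Hecke equivariance for the transfer operators `heckeHomT`, `heckeHomU`.
-/

set_option autoImplicit false

namespace FermatAgent.Periods

open Complex Filter Topology Set CongruenceSubgroup UpperHalfPlane ModularCurve ModularCurve.Period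
open scoped MatrixGroups ModularForm

variable {N : ℕ} [NeZero N]

theorem two_eq : (2 : ℤ) = ((0 : ℕ) : ℤ) + 2 := by norm_num

/-- The primitive of `f(τ) dτ` vanishing at `i∞`. -/
noncomputable def primitive (f : CuspForm (Gamma0 N) 2) (τ : ℍ) : ℂ := momInt (extC ⇑f) 0 τ

theorem momMat_zero (A : Matrix (Fin 2) (Fin 2) ℤ) : momMat 0 A = 1 := by
  ext i j
  obtain rfl : i = 0 := Fin.fin_one_eq_zero i
  obtain rfl : j = 0 := Fin.fin_one_eq_zero j
  simp [momMat, momPoly]

theorem pullVec_zero_apply (A : Matrix (Fin 2) (Fin 2) ℤ) (g : ℂ → ℂ) (z : ℂ) (i : Fin 1) :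
    pullVec 0 A g z i = momInt g 0 (mob A z) := by
  obtain rfl : i = 0 := Fin.fin_one_eq_zero i
  simp [pullVec, momMat_zero, momVec]

theorem coe_SL_smul (γ : SL(2, ℤ)) (τ : ℍ) :
    ((γ • τ : ℍ) : ℂ) = mob (γ : Matrix (Fin 2) (Fin 2) ℤ) τ := by
  rw [UpperHalfPlane.coe_specialLinearGroup_apply]
  simp [mob]

theorem primitive_smul_sub (f : CuspForm (Gamma0 N) 2) (γ : Gamma0 N) (τ : ℍ) :
    primitive f ((γ : SL(2, ℤ)) • τ) - primitive f τ = periodLin N 2 0 f γ 0 := by
  have h := congrFun (pullVec_eq_add_periodVec 0 (vDecay_cuspForm f) (det_SL_pos (γ : SL(2, ℤ)))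
    (isInvariantUnder_cuspForm two_eq f γ) (show (τ : ℂ) ∈ upperSet from τ.im_pos)) 0
  rw [pullVec_zero_apply, Pi.add_apply, ← coe_SL_smul] at h
  rw [periodLin_apply, primitive, primitive, h, momVec]
  simp

theorem tendsto_momInt_zero_atImInfty {g : ℂ → ℂ} (hg : VDecay g) :
    Tendsto (fun τ : ℍ => momInt g 0 τ) atImInfty (𝓝 0) := by
  obtain ⟨c, hc, C, A, hC⟩ := eichInt_exp_bound hg 0
  have hb : ∀ᶠ τ : ℍ in atImInfty, ‖momInt g 0 τ‖ ≤ C * Real.exp (-c * τ.im) := by
    refine Filter.eventually_iff.mpr ((atImInfty_mem _).mpr ⟨A, fun τ hτ => ?_⟩)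
    have := hC (τ : ℂ) hτ
    simpa [eichInt] using this
  refine squeeze_zero_norm' hb ?_
  have := ((Real.tendsto_exp_atBot.comp
    (tendsto_id.const_mul_atTop_of_neg (by linarith : -c < 0))).const_mul C).comp
    (tendsto_comap : Tendsto UpperHalfPlane.im atImInfty atTop)
  simpa [Function.comp_def, atImInfty] using this

theorem hasEquivariantPrimitive_primitive (f : CuspForm (Gamma0 N) 2) :
    HasEquivariantPrimitive N f (primitive f) := by
  refine ⟨fun τ => ?_, tendsto_momInt_zero_atImInfty (vDecay_cuspForm f),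
    fun γ => ⟨_, primitive_smul_sub f γ⟩, fun δ => ?_⟩
  · have h := hasDerivAt_momInt (vDecay_cuspForm f) 0 (show (τ : ℂ) ∈ upperSet from τ.im_pos)
    rw [pow_zero, mul_one, extC_coe] at h
    refine h.congr_of_eventuallyEq ?_
    filter_upwards [isOpen_upperSet.mem_nhds (show (τ : ℂ) ∈ upperSet from τ.im_pos)] with z hz
    simp [primitive, ofComplex_apply_of_im_pos (show 0 < z.im from hz)]
  · obtain ⟨C, hC⟩ := exists_pullVec_eq_add 0 (vDecay_cuspForm f) (vDecay_slash f δ)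
      (δ : Matrix (Fin 2) (Fin 2) ℤ) (det_SL_pos δ)
      fun z hz => extC_slash_SL_eq_slashC two_eq (⇑f) δ hz
    refine ⟨C 0, ?_⟩
    have := (tendsto_momInt_zero_atImInfty (vDecay_slash f δ)).add_const (C 0)
    simp only [zero_add] at this
    refine this.congr fun τ => ?_
    have h := congrFun (hC (τ : ℂ) τ.im_pos) 0
    rw [pullVec_zero_apply, ← coe_SL_smul] at h
    simpa [momVec, primitive] using h.symm

omit [NeZero N] in
theorem hasEquivariantPrimitive_unique (f : CuspForm (Gamma0 N) 2) {F G : ℍ → ℂ}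
    (hF : HasEquivariantPrimitive N f F) (hG : HasEquivariantPrimitive N f G) : F = G := by
  funext τ
  have hd : ∀ {F : ℍ → ℂ}, HasEquivariantPrimitive N f F →
      ∀ z ∈ upperSet, HasDerivAt (F ∘ ofComplex) (extC (⇑f) z) z := fun {F} hF z hz => by
    simpa [extC_apply _ hz] using hF.1 ⟨z, hz⟩
  have hlim : Tendsto (fun t : ℝ => (F ∘ ofComplex) (Complex.I + t * Complex.I) -
      (G ∘ ofComplex) (Complex.I + t * Complex.I)) atTop (𝓝 0) := by
    have h0 := hF.2.1.sub hG.2.1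
    rw [sub_zero] at h0
    refine (h0.comp (tendsto_comap_iff.mpr ?_ :
      Tendsto (fun t : ℝ => ofComplex (Complex.I + t * Complex.I)) atTop atImInfty)).congr
      fun _ => rfl
    refine Tendsto.congr' ?_ (tendsto_atTop_add_const_left atTop (1 : ℝ) tendsto_id)
    filter_upwards [eventually_ge_atTop (0 : ℝ)] with t ht
    have : 0 < (Complex.I + t * Complex.I).im := by simp; linarith
    simp [Function.comp_apply, ofComplex_apply_of_im_pos this]
  have h := eqOn_of_hasDerivAt_of_tendsto (hd hF) (hd hG) I_mem_upperSet hlim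
    (show (τ : ℂ) ∈ upperSet from τ.im_pos)
  simpa using h

omit [NeZero N] in
theorem periodMap_eq_periodHom (f : CuspForm (Gamma0 N) 2) {F : ℍ → ℂ}
    (hF : HasEquivariantPrimitive N f F) : periodMap N f = hF.2.2.1.periodHom := by
  obtain ⟨F₀, h₀, he⟩ := periodMap_def N f hF
  obtain rfl := hasEquivariantPrimitive_unique f h₀ hF
  exact he

/-- The period of `f` at `γ`, through any base point. -/
theorem periodMap_apply_eq_sub (f : CuspForm (Gamma0 N) 2) (γ : Gamma0 N) (τ : ℍ) :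
    periodMap N f (Additive.ofMul γ) = primitive f ((γ : SL(2, ℤ)) • τ) - primitive f τ := by
  rw [periodMap_eq_periodHom f (hasEquivariantPrimitive_primitive f), primitive_smul_sub]
  exact primitive_smul_sub f γ UpperHalfPlane.I

theorem periodMap_apply (f : CuspForm (Gamma0 N) 2) (γ : Gamma0 N) :
    periodMap N f (Additive.ofMul γ) = periodLin N 2 0 f γ 0 :=
  (periodMap_apply_eq_sub f γ UpperHalfPlane.I).trans (primitive_smul_sub f γ _)

variable (N) in
/-- `periodMap` as a linear map. -/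
noncomputable def periodMapLin :
    CuspForm (Gamma0 N) 2 →ₗ[ℂ] (Additive (Gamma0 N) →+ ℂ) where
  toFun f := periodMap N f
  map_add' f g := AddMonoidHom.ext fun γ => by
    obtain ⟨γ, rfl⟩ := Additive.ofMul.surjective γ
    simp [periodMap_apply, map_add]
  map_smul' c f := AddMonoidHom.ext fun γ => by
    obtain ⟨γ, rfl⟩ := Additive.ofMul.surjective γ
    simp [periodMap_apply]

@[simp] theorem periodMapLin_apply (f : CuspForm (Gamma0 N) 2) :
    periodMapLin N f = periodMap N f := rfl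

theorem existsPeriodMapLinear (N : ℕ) [NeZero N] : ExistsPeriodMapLinear N :=
  ⟨periodMapLin N, fun _ => rfl⟩

theorem periodMap_injective (N : ℕ) [NeZero N] : Function.Injective (periodMap N) := fun f g h => by
  refine periodLin_injective two_eq (funext fun γ => funext fun i => ?_)
  obtain rfl : i = 0 := Fin.fin_one_eq_zero i
  rw [← periodMap_apply, ← periodMap_apply, h]

theorem periodHomPair_apply (f g : CuspForm (Gamma0 N) 2) :
    periodHomPair N (f, g) = periodMap N f + charInvolution N ℂ ℂ (periodMap N f) +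
      (periodMap N g - charInvolution N ℂ ℂ (periodMap N g)) := by
  obtain ⟨pml, hpml, h⟩ := periodHomPair_def N (existsPeriodMapLinear N)
  rw [h]
  simp [hpml]

theorem periodMap_heckeTLin {p : ℕ} (hp : p.Prime) (hpN : ¬ p ∣ N)
    (f : CuspForm (Gamma0 N) 2) :
    periodMap N (CuspForm.heckeTLin 2 hp hpN f) = heckeHomT ℂ N hp hpN (periodMap N f) := by
  have : NeZero p := ⟨hp.ne_zero⟩
  refine AddMonoidHom.ext fun γ => ?_
  obtain ⟨γ, rfl⟩ := Additive.ofMul.surjective γ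
  rw [periodMap_apply, periodLin_heckeTLin two_eq hp hpN f γ, heckeHomT,
    HeckeCorr.transfer_apply, Finset.sum_apply]
  simp [momMat_zero, periodMap_apply]

theorem periodMap_heckeULin {q : ℕ} [NeZero q] (hqN : q ∣ N) (f : CuspForm (Gamma0 N) 2) :
    periodMap N (CuspForm.heckeULin 2 hqN f) = heckeHomU ℂ N hqN (periodMap N f) := by
  refine AddMonoidHom.ext fun γ => ?_
  obtain ⟨γ, rfl⟩ := Additive.ofMul.surjective γ
  rw [periodMap_apply, periodLin_heckeULin two_eq hqN f γ, heckeHomU,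
    HeckeCorr.transfer_apply, Finset.sum_apply]
  simp [momMat_zero, periodMap_apply]

theorem periodHomPair_heckeTLin {p : ℕ} (hp : p.Prime) (hpN : ¬ p ∣ N)
    (f g : CuspForm (Gamma0 N) 2) :
    periodHomPair N (CuspForm.heckeTLin 2 hp hpN f, CuspForm.heckeTLin 2 hp hpN g) =
      heckeHomT ℂ N hp hpN (periodHomPair N (f, g)) := by
  simp only [periodHomPair_apply, map_add, map_sub, periodMap_heckeTLin,
    heckeHomT_charInvolution]

theorem periodHomPair_heckeULin {q : ℕ} [NeZero q] (hqN : q ∣ N)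
    (f g : CuspForm (Gamma0 N) 2) :
    periodHomPair N (CuspForm.heckeULin 2 hqN f, CuspForm.heckeULin 2 hqN g) =
      heckeHomU ℂ N hqN (periodHomPair N (f, g)) := by
  simp only [periodHomPair_apply, map_add, map_sub, periodMap_heckeULin,
    heckeHomU_charInvolution]

theorem exists_conj_of_trace_sq_eq_four (γ : SL(2, ℤ))
    (hγ : (γ : Matrix (Fin 2) (Fin 2) ℤ).trace ^ 2 = 4) :
    ∃ (δ : SL(2, ℤ)) (r : ℤ), ∀ τ : ℍ, γ • δ • τ = δ • ((r : ℝ) +ᵥ τ) := by
  obtain ⟨ε, hε, hε2⟩ : ∃ ε : ℤ, γ 0 0 + γ 1 1 = 2 * ε ∧ ε ^ 2 = 1 := by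
    rw [Matrix.trace_fin_two] at hγ
    rcases sq_eq_sq_iff_eq_or_eq_neg.mp (hγ.trans (by norm_num : (4 : ℤ) = 2 ^ 2)) with h | h
    · exact ⟨1, by rw [h]; ring, by ring⟩
    · exact ⟨-1, by rw [h]; ring, by ring⟩
  have hdet : γ 0 0 * γ 1 1 - γ 0 1 * γ 1 0 = 1 := by
    rw [← Matrix.det_fin_two]; exact γ.det_coe
  -- an eigenvector of `γ` for `ε`
  obtain ⟨v₀, v₁, hv, he0, he1⟩ : ∃ v₀ v₁ : ℤ, (v₀ ≠ 0 ∨ v₁ ≠ 0) ∧
      γ 0 0 * v₀ + γ 0 1 * v₁ = ε * v₀ ∧ γ 1 0 * v₀ + γ 1 1 * v₁ = ε * v₁ := by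
    by_cases h : γ 0 1 = 0 ∧ γ 0 0 = ε
    · exact ⟨0, 1, Or.inr one_ne_zero, by rw [h.1]; ring, by linear_combination hε - h.2⟩
    · refine ⟨-γ 0 1, γ 0 0 - ε, ?_, by ring, ?_⟩
      · by_contra h'
        simp only [not_or, ne_eq, not_not, neg_eq_zero, sub_eq_zero] at h'
        exact h h'
      · linear_combination hdet - ε * hε - hε2
  obtain ⟨u₀, u₁, g, hg, hcop, rfl, rfl⟩ : ∃ u₀ u₁ g : ℤ, g ≠ 0 ∧ IsCoprime u₀ u₁ ∧
      v₀ = u₀ * g ∧ v₁ = u₁ * g := by
    have hg : 0 < Int.gcd v₀ v₁ :=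
      Nat.pos_of_ne_zero fun h => by
        rw [Int.gcd_eq_zero_iff] at h
        exact hv.elim (fun hv => hv h.1) (fun hv => hv h.2)
    obtain ⟨u₀, u₁, hu, h0, h1⟩ := Int.exists_gcd_one hg
    exact ⟨u₀, u₁, Int.gcd v₀ v₁, by exact_mod_cast hg.ne', Int.isCoprime_iff_gcd_eq_one.mpr hu,
      h0, h1⟩
  obtain ⟨δ, hδ0, hδ1⟩ := hcop.exists_SL2_col 0
  set M : SL(2, ℤ) := δ⁻¹ * γ * δ with hM
  have hmul : (γ : Matrix (Fin 2) (Fin 2) ℤ) * δ = (δ : Matrix (Fin 2) (Fin 2) ℤ) * M := by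
    rw [← Matrix.SpecialLinearGroup.coe_mul, ← Matrix.SpecialLinearGroup.coe_mul, hM,
      mul_assoc, mul_inv_cancel_left]
  have h0 := congrFun (congrFun hmul 0) 0
  have h1 := congrFun (congrFun hmul 1) 0
  simp only [Matrix.mul_apply, Fin.sum_univ_two, hδ0, hδ1] at h0 h1
  have hdδ : δ 0 0 * δ 1 1 - δ 0 1 * δ 1 0 = 1 := by
    rw [← Matrix.det_fin_two]; exact δ.det_coe
  rw [hδ0, hδ1] at hdδ
  have e0 : γ 0 0 * u₀ + γ 0 1 * u₁ = ε * u₀ := mul_right_cancel₀ hg (by linear_combination he0)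
  have e1 : γ 1 0 * u₀ + γ 1 1 * u₁ = ε * u₁ := mul_right_cancel₀ hg (by linear_combination he1)
  have hM10 : M 1 0 = 0 := by
    linear_combination -u₀ * h1 + u₁ * h0 - M 1 0 * hdδ + u₀ * e1 - u₁ * e0
  have hM00 : M 0 0 = ε := by
    linear_combination -δ 1 1 * h0 + δ 0 1 * h1 + (ε - M 0 0) * hdδ + δ 1 1 * e0 - δ 0 1 * e1
  have hdM : M 0 0 * M 1 1 - M 0 1 * M 1 0 = 1 := by
    rw [← Matrix.det_fin_two]; exact M.det_coe
  rw [hM00, hM10] at hdM
  have hM11 : M 1 1 = ε := by linear_combination ε * hdM - M 1 1 * hε2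
  refine ⟨δ, ε * M 0 1, fun τ => ?_⟩
  rw [← mul_smul, show γ * δ = δ * M by rw [hM, mul_assoc, mul_inv_cancel_left], mul_smul]
  congr 1
  apply UpperHalfPlane.ext
  rw [coe_SL_smul, mob, hM10, hM00, hM11, UpperHalfPlane.coe_vadd]
  have hεC : (ε : ℂ) ^ 2 = 1 := by exact_mod_cast hε2
  have hε0 : (ε : ℂ) ≠ 0 := fun h => by rw [h] at hεC; norm_num at hεC
  push_cast
  rw [div_eq_iff (by simpa using hε0)]
  linear_combination -(M 0 1 : ℂ) * hεC

theorem periodMap_mem_parabolicHoms (f : CuspForm (Gamma0 N) 2) :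
    periodMap N f ∈ parabolicHoms ℂ (Gamma0 N) ℂ := by
  intro γ hγ
  obtain ⟨δ, r, hr⟩ := exists_conj_of_trace_sq_eq_four (γ : SL(2, ℤ)) hγ
  obtain ⟨L, hL⟩ := (hasEquivariantPrimitive_primitive f).2.2.2 δ
  have htrans : Tendsto (fun τ : ℍ => (r : ℝ) +ᵥ τ) atImInfty atImInfty := by
    refine tendsto_comap_iff.mpr ?_
    refine (tendsto_comap : Tendsto UpperHalfPlane.im atImInfty atTop).congr fun τ => ?_
    simp
  have h1 : Tendsto (fun τ : ℍ => periodMap N f (Additive.ofMul γ)) atImInfty (𝓝 (L - L)) := by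
    refine ((hL.comp htrans).sub hL).congr fun τ => ?_
    rw [periodMap_apply_eq_sub f γ (δ • τ), hr]
    rfl
  rw [sub_self] at h1
  exact tendsto_nhds_unique tendsto_const_nhds h1

theorem periodHomPair_mem_parabolicHoms (x : CuspForm (Gamma0 N) 2 × CuspForm (Gamma0 N) 2) :
    periodHomPair N x ∈ parabolicHoms ℂ (Gamma0 N) ℂ := by
  obtain ⟨f, g⟩ := x
  rw [periodHomPair_apply]
  exact add_mem
    (add_mem (periodMap_mem_parabolicHoms f)
      (charInvolution_mem_parabolicHoms N ℂ ℂ (periodMap_mem_parabolicHoms f)))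
    (sub_mem (periodMap_mem_parabolicHoms g)
      (charInvolution_mem_parabolicHoms N ℂ ℂ (periodMap_mem_parabolicHoms g)))

end FermatAgent.Periods
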