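import Mathlib
import Fermat.Agent.Periods.HeckePeriods
import Fermat.Prelude.Def_CuspForm_HeckeAlgebra

/-!
The Hecke algebra of `S_k(Γ₀(N))` is a finitely generated `ℤ`-module for every weight.
-/

set_option autoImplicit false

namespace FermatAgent.Periods

open CongruenceSubgroup
open scoped MatrixGroups ModularForm

variable {N : ℕ} [NeZero N] {k : ℤ} {n : ℕ}

theorem neg_one_mem_Gamma0 (N : ℕ) : (-1 : SL(2, ℤ)) ∈ Gamma0 N := Gamma0_mem.mpr (by simp)

omit [NeZero N] in
theorem eq_zero_of_odd_weight (hk : Odd k) (f : CuspForm (Gamma0 N) k) : f = 0 := by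
  ext τ
  have h := congrFun (slash_eq_self f (neg_one_mem_Gamma0 N)) τ
  rw [ModularForm.SL_slash_apply, ModularGroup.denom_apply] at h
  simp [hk.neg.neg_one_zpow] at h
  simp [CharZero.eq_neg_self_iff.mp h.symm]

theorem eq_zero_of_weight_nonpos (hk : k ≤ 0) (f : CuspForm (Gamma0 N) k) : f = 0 := by
  let F : ModularForm (Gamma0 N) k :=
    { toFun := ⇑f
      slash_action_eq' := f.slash_action_eq'
      holo' := f.holo'
      bdd_at_cusps' := fun hc => ModularFormClass.bdd_at_cusps f hc }
  rcases lt_or_eq_of_le hk with hk | rfl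
  · have hF : F = 0 := ModularForm.isZero_of_neg_weight hk F
    ext τ
    exact DFunLike.congr_fun hF τ
  · obtain ⟨c, hc⟩ := F.eq_const_of_weight_zero
    have hc' : (⇑f : UpperHalfPlane → ℂ) = Function.const _ c := hc
    have h0 : Filter.Tendsto (⇑f) UpperHalfPlane.atImInfty (nhds 0) :=
      CuspFormClass.zero_at_infty f
    rw [hc'] at h0
    have : c = 0 := tendsto_nhds_unique tendsto_const_nhds h0
    ext τ
    simp [hc', this]

variable (N k n) in
/-- The functional `f ↦ (period of f at γ) i`. -/
noncomputable def periodCoord (γ : Gamma0 N) (i : Fin (n + 1)) :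
    CuspForm (Gamma0 N) k →ₗ[ℂ] ℂ :=
  (LinearMap.proj i).comp ((LinearMap.proj γ).comp (periodLin N k n))

theorem periodCoord_apply (γ : Gamma0 N) (i : Fin (n + 1)) (f : CuspForm (Gamma0 N) k) :
    periodCoord N k n γ i f = periodLin N k n f γ i := rfl

variable (N k n) in
/-- The lattice spanned by the period functionals. -/
noncomputable def periodLattice : Submodule ℤ (CuspForm (Gamma0 N) k →ₗ[ℂ] ℂ) :=
  Submodule.span ℤ (Set.range fun x : Gamma0 N × Fin (n + 1) => periodCoord N k n x.1 x.2)

theorem periodLattice_fg (hk : k = (n : ℤ) + 2) : (periodLattice N k n).FG := by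
  have : Group.FG SL(2, ℤ) := Group.fg_iff.mpr
    ⟨{ModularGroup.S, ModularGroup.T}, SpecialLinearGroup.SL2Z_generators, by simp⟩
  have : Group.FG (Gamma0 N) := inferInstance
  obtain ⟨G, hG⟩ := Group.fg_iff'.mp (inferInstance : Group.FG (Gamma0 N))
  classical
  obtain ⟨s, hs, hsG⟩ := hG
  set gens : Set (CuspForm (Gamma0 N) k →ₗ[ℂ] ℂ) :=
    (fun x : Gamma0 N × Fin (n + 1) => periodCoord N k n x.1 x.2) '' ((s : Set (Gamma0 N)) ×ˢ Set.univ)
  have hfin : gens.Finite := (s.finite_toSet.prod Set.finite_univ).image _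
  suffices h : periodLattice N k n = Submodule.span ℤ gens from h ▸ Submodule.fg_span hfin
  refine le_antisymm (Submodule.span_le.mpr ?_) (Submodule.span_mono (Set.image_subset_range _ _))
  rintro _ ⟨⟨γ, i⟩, rfl⟩
  show periodCoord N k n γ i ∈ Submodule.span ℤ gens
  have hγ : γ ∈ Subgroup.closure (s : Set (Gamma0 N)) := by rw [hsG]; trivial
  induction hγ using Subgroup.closure_induction generalizing i with
  | mem x hx => exact Submodule.subset_span ⟨(x, i), ⟨hx, trivial⟩, rfl⟩
  | one =>
    convert Submodule.zero_mem (Submodule.span ℤ gens) using 1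
    exact LinearMap.ext fun f => congrFun (periodLin_one f) i
  | mul x y _ _ hx hy =>
    have : periodCoord N k n (x * y) i = periodCoord N k n y i +
        ∑ j, momMat n ((y : SL(2, ℤ)) : Matrix (Fin 2) (Fin 2) ℤ) i j • periodCoord N k n x j := by
      refine LinearMap.ext fun f => ?_
      simp only [periodCoord_apply, periodLin_mul hk f x y, LinearMap.add_apply,
        LinearMap.sum_apply, LinearMap.smul_apply, zsmul_eq_mul]
      rfl
    rw [this]
    exact add_mem (hy i) (Submodule.sum_mem _ fun j _ => Submodule.smul_mem _ _ (hx j))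
  | inv x _ hx =>
    have : periodCoord N k n x⁻¹ i =
        -∑ j, momMat n (((x⁻¹ : Gamma0 N) : SL(2, ℤ)) : Matrix (Fin 2) (Fin 2) ℤ) i j •
          periodCoord N k n x j := by
      refine LinearMap.ext fun f => ?_
      have h := congrFun (periodLin_mul hk f x x⁻¹) i
      rw [mul_inv_cancel, periodLin_one] at h
      simp only [periodCoord_apply, LinearMap.neg_apply, LinearMap.sum_apply, LinearMap.smul_apply,
        zsmul_eq_mul]
      exact eq_neg_of_add_eq_zero_left h.symm
    rw [this]
    exact neg_mem (Submodule.sum_mem _ fun j _ => Submodule.smul_mem _ _ (hx j))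

theorem periodLattice_stable_of (T : Module.End ℂ (CuspForm (Gamma0 N) k)) {ι : Type} [Fintype ι]
    (M : Gamma0 N → ι → Matrix (Fin (n + 1)) (Fin (n + 1)) ℤ) (d : Gamma0 N → ι → Gamma0 N)
    (hT : ∀ f γ, periodLin N k n (T f) γ =
      ∑ l, ((M γ l).map (Int.cast : ℤ → ℂ)).mulVec (periodLin N k n f (d γ l))) :
    ∀ φ ∈ periodLattice N k n, φ ∘ₗ T ∈ periodLattice N k n := by
  intro φ hφ
  induction hφ using Submodule.span_induction with
  | mem x hx =>
    obtain ⟨⟨γ, i⟩, rfl⟩ := hx
    have : periodCoord N k n γ i ∘ₗ T =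
        ∑ l, ∑ j, M γ l i j • periodCoord N k n (d γ l) j := by
      refine LinearMap.ext fun f => ?_
      simp only [LinearMap.comp_apply, periodCoord_apply, hT, Finset.sum_apply,
        LinearMap.sum_apply, LinearMap.smul_apply, zsmul_eq_mul]
      rfl
    show periodCoord N k n γ i ∘ₗ T ∈ _
    rw [this]
    exact Submodule.sum_mem _ fun l _ => Submodule.sum_mem _ fun j _ =>
      Submodule.smul_mem _ _ (Submodule.subset_span ⟨(d γ l, j), rfl⟩)
  | zero => simp
  | add x y _ _ hx hy => rw [LinearMap.add_comp]; exact add_mem hx hy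
  | smul a x _ hx => rw [LinearMap.smul_comp]; exact Submodule.smul_mem _ a hx

theorem heckeAlgebra_finite_of_two_le (hk : k = (n : ℤ) + 2) (S : Set ℕ) :
    Module.Finite ℤ (CuspForm.heckeAlgebra N k S) := by
  have hstab : ∀ t ∈ CuspForm.heckeAlgebra N k S,
      ∀ φ ∈ periodLattice N k n, φ ∘ₗ t ∈ periodLattice N k n := by
    intro t ht
    induction ht using Algebra.adjoin_induction with
    | mem x hx =>
      rcases hx with ⟨ℓ, hℓ, hℓN, -, rfl⟩ | ⟨q, hqN, hq, -, rfl⟩
      · have : NeZero ℓ := ⟨hℓ.ne_zero⟩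
        exact periodLattice_stable_of _ _ _ (periodLin_heckeTLin hk hℓ hℓN)
      · have : NeZero q := ⟨hq.ne_zero⟩
        exact periodLattice_stable_of _ _ _ (periodLin_heckeULin hk hqN)
    | algebraMap r =>
      intro φ hφ
      have : φ ∘ₗ (algebraMap ℤ (Module.End ℂ (CuspForm (Gamma0 N) k)) r) = r • φ :=
        LinearMap.ext fun f => by simp
      rw [this]
      exact Submodule.smul_mem _ r hφ
    | add x y _ _ hx hy =>
      intro φ hφ
      rw [LinearMap.comp_add]
      exact add_mem (hx φ hφ) (hy φ hφ)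
    | mul x y _ _ hx hy =>
      intro φ hφ
      exact hy _ (hx φ hφ)
  have hfg : (periodLattice N k n).FG := periodLattice_fg hk
  have : Module.Finite ℤ (periodLattice N k n) := Module.Finite.of_fg hfg
  obtain ⟨m, v, hv⟩ := Submodule.fg_iff_exists_fin_generating_family.mp hfg
  let ev : CuspForm.heckeAlgebra N k S →ₗ[ℤ] (Fin m → periodLattice N k n) :=
    { toFun := fun t a => ⟨v a ∘ₗ (t : Module.End ℂ (CuspForm (Gamma0 N) k)),
        hstab _ t.2 _ (hv ▸ Submodule.subset_span ⟨a, rfl⟩)⟩
      map_add' := fun t t' => funext fun a => Subtype.ext (LinearMap.comp_add _ _ _)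
      map_smul' := fun c t => funext fun a => Subtype.ext (LinearMap.ext fun f => by simp) }
  refine Module.Finite.of_injective ev fun t t' h => Subtype.ext ?_
  refine LinearMap.ext fun f => periodLin_injective hk (funext fun γ => funext fun i => ?_)
  have hall : ∀ φ ∈ periodLattice N k n, φ ((t : Module.End ℂ (CuspForm (Gamma0 N) k)) f) =
      φ ((t' : Module.End ℂ (CuspForm (Gamma0 N) k)) f) := by
    rw [← hv]
    intro φ hφ
    induction hφ using Submodule.span_induction with
    | mem x hx =>
      obtain ⟨a, rfl⟩ := hx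
      exact LinearMap.congr_fun (congrArg Subtype.val (congrFun h a)) f
    | zero => simp
    | add x y _ _ hx hy => simp [hx, hy]
    | smul a x _ hx => simp [hx]
  exact hall _ (Submodule.subset_span ⟨(γ, i), rfl⟩)

theorem moduleFinite_heckeAlgebra_all (N : ℕ) [NeZero N] (k : ℤ) (S : Set ℕ) :
    Module.Finite ℤ (CuspForm.heckeAlgebra N k S) := by
  by_cases h : 2 ≤ k
  · exact heckeAlgebra_finite_of_two_le (n := (k - 2).toNat) (by omega) S
  · have hzero : ∀ f : CuspForm (Gamma0 N) k, f = 0 := by
      rcases le_or_gt k 0 with hk | hk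
      · exact eq_zero_of_weight_nonpos hk
      · exact eq_zero_of_odd_weight ⟨0, by omega⟩
    have : Subsingleton (CuspForm (Gamma0 N) k) :=
      ⟨fun a b => (hzero a).trans (hzero b).symm⟩
    have : Subsingleton (CuspForm.heckeAlgebra N k S) :=
      ⟨fun a b => Subtype.ext (LinearMap.ext fun f => Subsingleton.elim _ _)⟩
    infer_instance

end FermatAgent.Periods
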